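import Fermat.Agent.S15.B.Desc.Loc0

/-!
# S15 / B / Desc / %s
(see `Loc0.lean` for the setting)
-/

set_option autoImplicit false
set_option linter.unusedSectionVars false

namespace Fermat.Agent.S15.B.Desc

open AlgebraicCurve Fermat.Agent.S26 Fermat.Agent.S37.Red Polynomial IntermediateField

variable {Ω 𝕃 : Type*} [Field Ω] [Field 𝕃] [Algebra Ω 𝕃]

/-- `q(Z)` has order `0` at a zero of `Z` if `q(0) ≠ 0`. -/
theorem Loc2_ord_aeval (Q : Place Ω 𝕃) {Z : 𝕃} (hZ : 0 < Q.ord Z) {q : Polynomial Ω}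
    (hq : q.eval 0 ≠ 0) : Q.ord (aeval Z q) = 0 := by
  have hvan : Van Q Z := van_of_ord_pos Q hZ
  have hreg : Reg Q Z := hvan.reg Q
  refine ord_eq_zero_of_reg_of_not_van Q (hreg.aeval Q q) ?_
  intro h
  apply hq
  have h1 : aeval Z q = aeval Z q.divX * Z + algebraMap Ω 𝕃 (q.coeff 0) := by
    conv_lhs => rw [← divX_mul_X_add q]
    rw [map_add, map_mul, aeval_X, aeval_C]
  have h2 : Van Q (algebraMap Ω 𝕃 (q.coeff 0)) := by
    have h3 : algebraMap Ω 𝕃 (q.coeff 0) = aeval Z q - aeval Z q.divX * Z := by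
      rw [h1]; ring
    rw [h3]
    exact Van.sub Q h (Van.mul_left Q (hreg.aeval Q _) hvan)
  rw [← coeff_zero_eq_eval_zero]
  exact (van_algebraMap_iff Q).1 h2

/-- a polynomial `p ≠ 0` in a parameter `Z` at `Q` has order `rootMultiplicity 0 p ≤ natDegree p`: if `p(Z) / Z ^ e` is regular at `Q` and `deg p < e` then `p = 0`.
Proof.  `p = X ^ m * q`, `q(0) ≠ 0` (`Polynomial.exists_eq_pow_rootMultiplicity_mul_and_not_dvd` / `X_pow_mul..`, `m ≤ natDegree p < e`); `q(Z)` has order `0` at `Q` (`ord_aeval_eq_zero` with `x := Z`, `c := 0`,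
`Over Z 0 Q` from `over_iff`/`van_of_ord_pos`), so `ord_Q (p(Z) / Z ^ e) = m - e < 0`. -/
theorem eq_zero_of_reg_div_pow (Q : Place Ω 𝕃) {Z : 𝕃} (hZ : Q.ord Z = 1) {e : ℕ} {p : Polynomial Ω}
    (hp : p.natDegree < e) (h : Reg Q (aeval Z p / Z ^ e)) : p = 0 := by
  by_contra hp0
  have hZ0 : Z ≠ 0 := by
    rintro rfl
    rw [Place.ord_zero] at hZ
    omega
  obtain ⟨q, hq, hnd⟩ := exists_eq_pow_rootMultiplicity_mul_and_not_dvd p hp0 0
  set m := p.rootMultiplicity 0 with hm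
  have hq0 : q ≠ 0 := by
    rintro rfl
    exact hnd (dvd_zero _)
  have hmle : m ≤ p.natDegree := by
    conv_rhs => rw [hq]
    rw [natDegree_mul (pow_ne_zero _ (X_sub_C_ne_zero 0)) hq0, natDegree_pow, natDegree_X_sub_C]
    omega
  have hqe : q.eval 0 ≠ 0 := by
    intro h0
    exact hnd (dvd_iff_isRoot.2 h0)
  have hord : Q.ord (aeval Z q) = 0 := Loc2_ord_aeval Q (by omega) hqe
  have hqZ : aeval Z q ≠ 0 := by
    intro h0
    have h1 : Van Q (aeval Z q) := by rw [h0]; exact van_zero Q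
    have hvan : Van Q Z := van_of_ord_pos Q (by omega)
    have h2 : aeval Z q = aeval Z q.divX * Z + algebraMap Ω 𝕃 (q.coeff 0) := by
      conv_lhs => rw [← divX_mul_X_add q]
      rw [map_add, map_mul, aeval_X, aeval_C]
    have h3 : algebraMap Ω 𝕃 (q.coeff 0) = aeval Z q - aeval Z q.divX * Z := by
      rw [h2]; ring
    have h4 : Van Q (algebraMap Ω 𝕃 (q.coeff 0)) := by
      rw [h3]
      exact Van.sub Q h1 (Van.mul_left Q ((hvan.reg Q).aeval Q _) hvan)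
    apply hqe
    rw [← coeff_zero_eq_eval_zero]
    exact (van_algebraMap_iff Q).1 h4
  have hpZ : aeval Z p = Z ^ m * aeval Z q := by
    conv_lhs => rw [hq]
    rw [map_mul, map_pow, map_sub, aeval_X, aeval_C, map_zero, sub_zero]
  rw [reg_iff_ord, hpZ, Fermat.Agent.S24.FF.ord_div Q (mul_ne_zero (pow_ne_zero _ hZ0) hqZ)
    (pow_ne_zero _ hZ0), Q.ord_mul (pow_ne_zero _ hZ0) hqZ, Fermat.Agent.S24.FF.ord_pow,
    Fermat.Agent.S24.FF.ord_pow, hZ, hord] at h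
  omega

/-- the version of `eq_zero_of_reg_div_pow` for families of coefficients. -/
theorem Loc2_fin (Q : Place Ω 𝕃) {Z : 𝕃} (hZ : Q.ord Z = 1) {e : ℕ} (l : Fin e → Ω)
    (h : Reg Q ((∑ a : Fin e, algebraMap Ω 𝕃 (l a) * Z ^ (a : ℕ)) / Z ^ e)) (a : Fin e) :
    l a = 0 := by
  have h1 : aeval Z (∑ i : Fin e, C (l i) * X ^ (i : ℕ)) =
      ∑ a : Fin e, algebraMap Ω 𝕃 (l a) * Z ^ (a : ℕ) := by
    rw [map_sum]
    refine Finset.sum_congr rfl fun i _ => ?_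
    rw [map_mul, map_pow, aeval_X, aeval_C]
  have h2 : (∑ i : Fin e, C (l i) * X ^ (i : ℕ)) = 0 := by
    by_contra h0
    refine h0 (eq_zero_of_reg_div_pow Q hZ ?_ (by rw [h1]; exact h))
    exact (natDegree_lt_iff_degree_lt h0).2 (degree_sum_fin_lt l)
  have h3 : (∑ i : Fin e, C (l i) * X ^ (i : ℕ)).coeff a = l a := by
    rw [finsetSum_coeff, Finset.sum_eq_single a]
    · rw [coeff_C_mul, coeff_X_pow, if_pos rfl, mul_one]
    · intro b _ hb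
      rw [coeff_C_mul, coeff_X_pow, if_neg (fun hh => hb (Fin.ext hh.symm)), mul_zero]
    · intro hh
      exact absurd (Finset.mem_univ a) hh
  rw [← h3, h2, coeff_zero]

variable [IsAlgClosed Ω] [FF1 Ω 𝕃]

/-- **(L2)** the family `r_{(Q,a)} = Z_Q ^ a * ∏_{Q' ≠ Q} Z_{Q'} ^ e_{Q'}` (`Q | c`, `0 ≤ a < e_Q = ord_Q (x - c)`), re-indexed by `Fin n` (`∑ e_Q = n`: `sum_ord_over`; `Fintype.card_sigma`, `Fintype.equivFinOfCardEq`).
* `ord_P r_{(Q,a)} = a` if `P = Q`, `= e_P` if `P ≠ Q` (`NormPoly.ord_prod_pow`).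
* `hind`: let `f = ∑ l_{(Q,a)} r_{(Q,a)}` with `f / (x - c)` regular over `c`.  Fix `P | c`, `W = ∏_{Q' ≠ P} Z_{Q'} ^ e_{Q'}` (order `0` at `P`), `p = ∑_a l_{(P,a)} X ^ a`.  Then
  `p(Z_P) / Z_P ^ e_P = [f / (x - c) - ∑_{Q ≠ P} l r_{(Q,a)} / (x - c)] * ((x - c) / Z_P ^ e_P) / W` is regular at `P`; `eq_zero_of_reg_div_pow` gives `p = 0`. -/
theorem exists_family {x : 𝕃} (hx : Transcendental Ω x) (c : Ω) (R : Subring 𝕃)
    (H : ∀ Q : Place Ω 𝕃, Over x c Q → ∃ Z ∈ R, Q.ord Z = 1 ∧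
      ∀ Q' : Place Ω 𝕃, Over x c Q' → Q' ≠ Q → Q'.ord Z = 0) :
    ∃ r : Fin (Module.finrank Ω⟮x⟯ 𝕃) → 𝕃, (∀ i, r i ∈ R) ∧ (∀ i, RegOver x c (r i)) ∧
      ∀ l : Fin (Module.finrank Ω⟮x⟯ 𝕃) → Ω,
        RegOver x c ((∑ i, algebraMap Ω 𝕃 (l i) * r i) / (x - algebraMap Ω 𝕃 c)) → l = 0 := by
  classical
  have : Fintype {Q : Place Ω 𝕃 // Over x c Q} := (finite_over hx c).fintype
  have hxc : x - algebraMap Ω 𝕃 c ≠ 0 := FFInt.sub_ne_zero hx c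
  choose Z hZR hZ1 hZ0 using fun Q : {Q : Place Ω 𝕃 // Over x c Q} => H Q.1 Q.2
  set e : {Q : Place Ω 𝕃 // Over x c Q} → ℕ :=
    fun Q => (Q.1.ord (x - algebraMap Ω 𝕃 c)).toNat with he_def
  have he : ∀ Q : {Q : Place Ω 𝕃 // Over x c Q}, (e Q : ℤ) = Q.1.ord (x - algebraMap Ω 𝕃 c) :=
    fun Q => Int.toNat_of_nonneg ((over_iff_ord hx).1 Q.2).le
  have hcard : Fintype.card (Σ Q : {Q : Place Ω 𝕃 // Over x c Q}, Fin (e Q)) =
      Module.finrank Ω⟮x⟯ 𝕃 := by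
    rw [Fintype.card_sigma]
    simp only [Fintype.card_fin]
    have h := sum_ord_over hx c
    rw [← finsum_subtype_eq_finsum_cond
      (f := fun v : Place Ω 𝕃 => v.ord (x - algebraMap Ω 𝕃 c)) (fun v => Over x c v),
      finsum_eq_sum_of_fintype] at h
    have h2 : ((∑ Q : {Q : Place Ω 𝕃 // Over x c Q}, e Q : ℕ) : ℤ) =
        (Module.finrank Ω⟮x⟯ 𝕃 : ℤ) := by
      rw [← h, Nat.cast_sum]
      exact Finset.sum_congr rfl (fun Q _ => he Q)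
    exact_mod_cast h2
  have hZne : ∀ Q, Z Q ≠ 0 := by
    intro Q h0
    have := hZ1 Q
    rw [h0, Place.ord_zero] at this
    omega
  have hZ0' : ∀ Q P : {Q : Place Ω 𝕃 // Over x c Q}, P ≠ Q → P.1.ord (Z Q) = 0 :=
    fun Q P hPQ => hZ0 Q P.1 P.2 (fun h => hPQ (Subtype.ext h))
  have hZreg : ∀ Q P : {Q : Place Ω 𝕃 // Over x c Q}, Reg P.1 (Z Q) := by
    intro Q P
    rw [reg_iff_ord]
    by_cases hPQ : P = Q
    · rw [hPQ, hZ1 Q]; omega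
    · rw [hZ0' Q P hPQ]
  set W : {Q : Place Ω 𝕃 // Over x c Q} → 𝕃 :=
    fun Q => ∏ Q' ∈ Finset.univ.erase Q, Z Q' ^ e Q' with hW_def
  have hWne : ∀ P, W P ≠ 0 := fun P =>
    Finset.prod_ne_zero_iff.2 fun Q' _ => pow_ne_zero _ (hZne Q')
  have hWord : ∀ P : {Q : Place Ω 𝕃 // Over x c Q}, P.1.ord (W P) = 0 := by
    intro P
    rw [hW_def]
    simp only
    rw [NormPoly.ord_prod_pow P.1 _ _ _ (fun Q' _ => hZne Q')]
    refine Finset.sum_eq_zero fun Q' hQ' => ?_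
    rw [hZ0' Q' P (Finset.ne_of_mem_erase hQ').symm, mul_zero]
  have hWR : ∀ P, W P ∈ R := fun P =>
    Subring.prod_mem R fun Q' _ => Subring.pow_mem R (hZR Q') _
  have hWreg : ∀ Q P : {Q : Place Ω 𝕃 // Over x c Q}, Reg P.1 (W Q) := fun Q P =>
    reg_prod P.1 _ _ fun Q' _ => (hZreg Q' P).pow P.1 _
  set r' : (Σ Q : {Q : Place Ω 𝕃 // Over x c Q}, Fin (e Q)) → 𝕃 :=
    fun j => Z j.1 ^ (j.2 : ℕ) * W j.1 with hr'_def
  have hu : ∀ P : {Q : Place Ω 𝕃 // Over x c Q},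
      P.1.ord (Z P ^ e P / (x - algebraMap Ω 𝕃 c)) = 0 := by
    intro P
    rw [Fermat.Agent.S24.FF.ord_div P.1 (pow_ne_zero _ (hZne P)) hxc, Fermat.Agent.S24.FF.ord_pow,
      hZ1 P, he P]
    ring
  have key1 : ∀ (P Q : {Q : Place Ω 𝕃 // Over x c Q}) (a : Fin (e Q)), Q ≠ P →
      Reg P.1 (r' ⟨Q, a⟩ / (x - algebraMap Ω 𝕃 c)) := by
    intro P Q a hQP
    have hmem : P ∈ Finset.univ.erase Q := Finset.mem_erase.2 ⟨hQP.symm, Finset.mem_univ P⟩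
    have h1 : r' ⟨Q, a⟩ / (x - algebraMap Ω 𝕃 c) = (Z P ^ e P / (x - algebraMap Ω 𝕃 c)) *
        (Z Q ^ (a : ℕ) * ∏ Q' ∈ (Finset.univ.erase Q).erase P, Z Q' ^ e Q') := by
      rw [hr'_def, hW_def]
      simp only
      rw [← Finset.mul_prod_erase _ _ hmem]
      ring
    rw [h1]
    refine Reg.mul P.1 ?_ (Reg.mul P.1 ((hZreg Q P).pow P.1 _)
      (reg_prod P.1 _ _ fun Q' _ => (hZreg Q' P).pow P.1 _))
    rw [reg_iff_ord, hu P]
  set eqv := Fintype.equivFinOfCardEq hcard with heqv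
  refine ⟨fun i => r' (eqv.symm i), fun i => ?_, fun i P hP => ?_, fun l hl => ?_⟩
  · exact Subring.mul_mem R (Subring.pow_mem R (hZR _) _) (hWR _)
  · exact Reg.mul P ((hZreg _ ⟨P, hP⟩).pow P _) (hWreg _ ⟨P, hP⟩)
  · funext i
    obtain ⟨⟨P, a⟩, rfl⟩ := eqv.surjective i
    have hsum : ∑ i, algebraMap Ω 𝕃 (l i) * r' (eqv.symm i) =
        ∑ Q : {Q : Place Ω 𝕃 // Over x c Q}, ∑ a : Fin (e Q),
          algebraMap Ω 𝕃 (l (eqv ⟨Q, a⟩)) * r' ⟨Q, a⟩ := by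
      rw [← Equiv.sum_comp eqv, Fintype.sum_sigma]
      refine Finset.sum_congr rfl fun Q _ => Finset.sum_congr rfl fun a _ => ?_
      rw [Equiv.symm_apply_apply]
    have hA : Reg P.1 ((∑ a : Fin (e P), algebraMap Ω 𝕃 (l (eqv ⟨P, a⟩)) * r' ⟨P, a⟩) /
        (x - algebraMap Ω 𝕃 c)) := by
      have h1 : (∑ a : Fin (e P), algebraMap Ω 𝕃 (l (eqv ⟨P, a⟩)) * r' ⟨P, a⟩) /
          (x - algebraMap Ω 𝕃 c) =
          (∑ i, algebraMap Ω 𝕃 (l i) * r' (eqv.symm i)) / (x - algebraMap Ω 𝕃 c) -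
          ∑ Q ∈ Finset.univ.erase P, ∑ a : Fin (e Q),
            algebraMap Ω 𝕃 (l (eqv ⟨Q, a⟩)) * (r' ⟨Q, a⟩ / (x - algebraMap Ω 𝕃 c)) := by
        rw [hsum, ← Finset.add_sum_erase Finset.univ _ (Finset.mem_univ P), add_div,
          Finset.sum_div]
        simp only [Finset.sum_div, mul_div_assoc]
        ring
      rw [h1]
      refine Reg.sub P.1 (hl P.1 P.2) (reg_sum P.1 _ _ fun Q hQ => reg_sum P.1 _ _ fun a _ => ?_)
      exact Reg.mul P.1 (reg_algebraMap P.1 _) (key1 P Q a (Finset.ne_of_mem_erase hQ))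
    refine Loc2_fin P.1 (hZ1 P) (fun a => l (eqv ⟨P, a⟩)) ?_ a
    have h2 : (∑ a : Fin (e P), algebraMap Ω 𝕃 (l (eqv ⟨P, a⟩)) * Z P ^ (a : ℕ)) / Z P ^ e P =
        ((∑ a : Fin (e P), algebraMap Ω 𝕃 (l (eqv ⟨P, a⟩)) * r' ⟨P, a⟩) /
          (x - algebraMap Ω 𝕃 c)) * (Z P ^ e P / (x - algebraMap Ω 𝕃 c))⁻¹ * (W P)⁻¹ := by
      have h3 : ∑ a : Fin (e P), algebraMap Ω 𝕃 (l (eqv ⟨P, a⟩)) * r' ⟨P, a⟩ =
          (∑ a : Fin (e P), algebraMap Ω 𝕃 (l (eqv ⟨P, a⟩)) * Z P ^ (a : ℕ)) * W P := by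
        rw [Finset.sum_mul]
        refine Finset.sum_congr rfl fun a _ => ?_
        rw [hr'_def]
        simp only
        ring
      rw [h3]
      have := hWne P
      have := pow_ne_zero (e P) (hZne P)
      field_simp
    rw [h2]
    refine Reg.mul P.1 (Reg.mul P.1 hA ?_) ?_
    · rw [reg_iff_ord, Place.ord_inv, hu P]; simp
    · rw [reg_iff_ord, Place.ord_inv, hWord P]; simp

end Fermat.Agent.S15.B.Desc
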