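import Fermat.Agent.S15.B.Desc.Loc1
import Fermat.Agent.S15.B.Desc.Loc2

/-!
# S15 / B / Desc / %s
(see `Loc0.lean` for the setting)
-/

set_option autoImplicit false
set_option linter.unusedSectionVars false

namespace Fermat.Agent.S15.B.Desc

open AlgebraicCurve Fermat.Agent.S26 Fermat.Agent.S37.Red Polynomial IntermediateField

variable {Ω 𝕃 : Type*} [Field Ω] [Field 𝕃] [Algebra Ω 𝕃]

variable [IsAlgClosed Ω] [FF1 Ω 𝕃]

/-- **(LOC)**
Proof.  `I = {d : Ω[X] | d(x) h ∈ R}` is an ideal (`R ⊇ Ω[x]`).  For every `c` it contains some `a` with `a(c) ≠ 0` (`exists_family`, `exists_mul_eq_sum`; `h` is regular over `c` by `IntK.reg`).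
`I = (d₀)` (`IsPrincipalIdealRing`), `d₀ ≠ 0`; if `d₀` is not a unit it has a root `c` (`IsAlgClosed.exists_root`), which is then a root of all elements of `I`: contradiction.  So `1 ∈ I`. -/
theorem mem_of_intK {x : 𝕃} (hx : Transcendental Ω x) (R : Subring 𝕃)
    (hΩ : ∀ a : Ω, algebraMap Ω 𝕃 a ∈ R) (hxR : x ∈ R)
    (H : ∀ (c : Ω) (Q : Place Ω 𝕃), Over x c Q → ∃ Z ∈ R, Q.ord Z = 1 ∧
      ∀ Q' : Place Ω 𝕃, Over x c Q' → Q' ≠ Q → Q'.ord Z = 0)
    {h : 𝕃} (hh : IntK Ω x h) : h ∈ R := by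
  have haev : ∀ p : Polynomial Ω, aeval x p ∈ R := by
    intro p
    induction p using Polynomial.induction_on' with
    | add p q hp hq => rw [map_add]; exact R.add_mem hp hq
    | monomial n a => rw [aeval_monomial]; exact R.mul_mem (hΩ a) (R.pow_mem hxR n)
  let I : Ideal (Polynomial Ω) :=
    { carrier := {d | aeval x d * h ∈ R}
      add_mem' := fun {a b} ha hb => by
        show aeval x (a + b) * h ∈ R
        rw [map_add, add_mul]
        exact R.add_mem ha hb
      zero_mem' := by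
        show aeval x (0 : Polynomial Ω) * h ∈ R
        rw [map_zero, zero_mul]
        exact R.zero_mem
      smul_mem' := fun a b hb => by
        show aeval x (a • b) * h ∈ R
        rw [smul_eq_mul, map_mul, mul_assoc]
        exact R.mul_mem (haev a) hb }
  have hmem : ∀ d : Polynomial Ω, d ∈ I ↔ aeval x d * h ∈ R := fun d => Iff.rfl
  have hI : ∀ c : Ω, ∃ a ∈ I, a.eval c ≠ 0 := by
    intro c
    have hfd : FiniteDimensional Ω⟮x⟯ 𝕃 := finiteDimensional_adjoin_of_transcendental hx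
    obtain ⟨r, hrR, hrreg, hind⟩ := exists_family hx c R (H c)
    obtain ⟨a, b, ha, hab⟩ := exists_mul_eq_sum hx c r hrreg hind (fun Q hQ => hh.reg Q hQ.1)
    refine ⟨a, ?_, ha⟩
    rw [hmem, hab]
    exact R.sum_mem fun i _ => R.mul_mem (haev _) (hrR i)
  have hdvd : ∀ a ∈ I, Submodule.IsPrincipal.generator I ∣ a := fun a ha =>
    (Submodule.IsPrincipal.mem_iff_generator_dvd I).1 ha
  have hdeg : (Submodule.IsPrincipal.generator I).degree = 0 := by
    by_contra hne
    obtain ⟨c, hc⟩ := IsAlgClosed.exists_root _ hne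
    obtain ⟨a, haI, hac⟩ := hI c
    obtain ⟨b, hb⟩ := hdvd a haI
    apply hac
    rw [hb, eval_mul, hc.eq_zero, zero_mul]
  have hunit : IsUnit (Submodule.IsPrincipal.generator I) := isUnit_iff_degree_eq_zero.2 hdeg
  have h1 : (1 : Polynomial Ω) ∈ I :=
    (Submodule.IsPrincipal.mem_iff_generator_dvd I).2 hunit.dvd
  rw [hmem, map_one, one_mul] at h1
  exact h1

end Fermat.Agent.S15.B.Desc
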