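import Fermat.Agent.S19.Geo0.Lift

/-!
# S15 / B / Desc / Param : parameters on a good model which are integral over `K[y]` for an ARBITRARY coordinate `y`
-/

set_option autoImplicit false
set_option linter.unusedSectionVars false

namespace Fermat.Agent.S15.B.Desc

open AlgebraicCurve Fermat.Agent.S26 Fermat.Agent.S37.Red Fermat.Agent.S19.Geo0

variable {K k : Type*} [Field K] [Field k] {A : ValuationSubring K} {π : A →+* k}
variable {F Ft : Type*} [Field F] [Field Ft] [Algebra K F] [Algebra k Ft]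
variable [IsAlgClosed K] [FF1 K F] [IsAlgClosed k] [FF1 k Ft]
variable {V : VFF A π F Ft} {x : F} {xt : Ft}

/-- a pole `v₀` of `y` whose centre is a pole of `yt`.
Proof.  `yt` is not constant, so it has a pole `Q₀` (e.g. `exists_over` for `yt⁻¹`, `c = 0`; or `S26` : a function without poles is constant).  By `ord_red hG hy`,
`ord_{Q₀} yt = ∑_{rP v = Q₀} ord_v y < 0`, so one of the terms is negative. -/
theorem exists_pole (hG : Good V x xt) {y : F} {yt : Ft} (hy : V.Red y yt)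
    (hyt : Transcendental k yt) :
    ∃ v₀ : Place K F, ¬ Reg v₀ y ∧ ¬ Reg (rP hG v₀) yt := by
  have hyt0 : yt ≠ 0 := fun h => hyt (h ▸ isAlgebraic_zero)
  have hinv : Transcendental k yt⁻¹ := by
    intro h
    apply hyt
    have := h.inv
    rwa [inv_inv] at this
  obtain ⟨Q₀, hQ₀⟩ := exists_ord_pos hinv
  rw [Q₀.ord_inv] at hQ₀
  have hneg : Q₀.ord yt < 0 := by omega
  have hsum := ord_red hG hy hyt0 Q₀
  obtain ⟨v₀, hv₀, hv₀y⟩ : ∃ v₀ : Place K F, rP hG v₀ = Q₀ ∧ v₀.ord y < 0 := by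
    by_contra hcon
    push Not at hcon
    have : 0 ≤ ∑ᶠ (v : Place K F) (_ : rP hG v = Q₀), v.ord y :=
      finsum_nonneg fun v => finsum_nonneg fun hv => hcon v hv
    omega
  refine ⟨v₀, ?_, ?_⟩
  · rw [reg_iff_ord]; omega
  · rw [hv₀, reg_iff_ord]; omega

/-- **(D3')**  `V` good (for some coordinate `x`); `y` ANY function with non constant reduction `yt`; `Q` a place of `Ft` over `yt = c`.  Then there is `t ∈ O`, integral over `K[y]`, whose reduction `tt` is integral over `k[yt]`,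
has a simple zero at `Q` and no other zero over `c`.
Proof = proof of `Geo0.exists_param` with `S = {Q' | Over yt c Q'}` (`finite_over`), `v₀` from `exists_pole`, `Q₀ = rP hG v₀ ∉ S`:
`exists_mem_LSpace_ord_eq` gives `tt ∈ L(m Q₀)`, `exists_ImL_eq_of_degree` lifts it to `t ∈ L(m v₀) ∩ O`.  The only pole of `t` is `v₀`, a pole of `y`: `intK_of_forall_reg`; the same for `tt`, `Q₀`, `yt`. -/
theorem exists_param_int (hG : Good V x xt) {y : F} {yt : Ft} (hy : V.Red y yt)
    (hyt : Transcendental k yt) (c : k) {Q : Place k Ft} (hQ : Over yt c Q) :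
    ∃ (t : F) (tt : Ft), V.Red t tt ∧ IntK K y t ∧ IntK k yt tt ∧ Q.ord tt = 1 ∧
      ∀ Q' : Place k Ft, Over yt c Q' → Q' ≠ Q → Q'.ord tt = 0 := by
  classical
  obtain ⟨gt, hgt⟩ := exists_isGenus (Ω := k) (𝕃 := Ft)
  obtain ⟨v₀, hv₀y, hv₀yt⟩ := exists_pole hG hy hyt
  obtain ⟨Q₀, hv₀⟩ : ∃ Q₀, rP hG v₀ = Q₀ := ⟨_, rfl⟩
  rw [hv₀] at hv₀yt
  set S : Finset (Place k Ft) := (finite_over hyt c).toFinset with hS
  have hmemS : ∀ Q' : Place k Ft, Q' ∈ S ↔ Over yt c Q' := fun Q' => by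
    rw [hS, Set.Finite.mem_toFinset]; rfl
  have hQ₀ : Q₀ ∉ S := fun h => hv₀yt ((hmemS Q₀).mp h).1
  have hdeg1 : Divisor.degree (Finsupp.single Q₀ (1 : ℤ)) = 1 := by
    rw [Divisor.degree_single, deg_eq_one_of_isAlgClosed]; simp
  have hdeg2 : Divisor.degree (Finsupp.single v₀ (1 : ℤ)) = 1 := by
    rw [Divisor.degree_single, deg_eq_one_of_isAlgClosed]; simp
  obtain ⟨m₁, hm₁⟩ := exists_mem_LSpace_ord_eq hgt S (P := Finsupp.single Q₀ (1 : ℤ))
    (by rw [hdeg1]; exact one_pos)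
    (fun Q' hQ' => by
      rw [Finsupp.single_apply, if_neg]
      rintro rfl
      exact hQ₀ hQ')
    (fun Q' => if Q' = Q then 1 else 0)
  obtain ⟨c', hc'⟩ := exists_ImL_eq_of_degree hG
  set m : ℕ := max m₁ c'.toNat with hm
  obtain ⟨tt, htt, -, hord⟩ := hm₁ m (le_max_left _ _)
  have hD : ImL V (m • Finsupp.single v₀ (1 : ℤ))
      = LSpace (rD hG (m • Finsupp.single v₀ (1 : ℤ))) := by
    apply hc'
    rw [map_nsmul, hdeg2, nsmul_eq_mul, mul_one]
    have : c'.toNat ≤ m := le_max_right _ _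
    omega
  rw [map_nsmul, rD_single, hv₀] at hD
  have htt' := htt
  rw [← hD] at htt'
  obtain ⟨t, ht, hred⟩ := htt'
  refine ⟨t, tt, hred, ?_, ?_, ?_, ?_⟩
  · refine intK_of_forall_reg fun v hv => ?_
    apply reg_of_mem_LSpace ht
    have hne : v₀ ≠ v := by
      rintro rfl
      exact hv₀y hv
    rw [Finsupp.smul_apply, Finsupp.single_apply, if_neg hne, smul_zero]
  · refine intK_of_forall_reg fun Q' hQ' => ?_
    apply reg_of_mem_LSpace htt
    have hne : Q₀ ≠ Q' := by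
      rintro rfl
      exact hv₀yt hQ'
    rw [Finsupp.smul_apply, Finsupp.single_apply, if_neg hne, smul_zero]
  · rw [hord Q ((hmemS Q).mpr hQ), if_pos rfl]; rfl
  · intro Q' hQ' hne
    rw [hord Q' ((hmemS Q').mpr hQ'), if_neg hne]; rfl

end Fermat.Agent.S15.B.Desc
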