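import Fermat.Agent.S37.Red.ON

/-!
# S15 / B / Desc / RelON : relative orthonormal bases; the relative norm commutes with reduction

`V₁ : VFF A π F₁ Ft₁`, `V₂ : VFF A π F₂ Ft₂`, `F₁ ⊆ F₂`, `Ft₁ ⊆ Ft₂` (given by `Algebra` instances), compatible reductions (`Compat`),
`[F₂ : F₁] ≤ [Ft₂ : Ft₁]`.   This is `S37/Red/ONAux.lean` + `S37/Red/ON.lean` (O1)-(O3) with the pair `(K⟮y⟯, k⟮yt⟯)` replaced by `(F₁, Ft₁)`:
COPY those proofs; `exists_red_adjoin` is replaced by `Compat.exists_red`.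
-/

set_option autoImplicit false
set_option linter.unusedSectionVars false

namespace Fermat.Agent.S15.B.Desc

open AlgebraicCurve Fermat.Agent.S26 Fermat.Agent.S37.Red

variable {K k : Type*} [Field K] [Field k] {A : ValuationSubring K} {π : A →+* k}
variable {F₁ Ft₁ F₂ Ft₂ : Type*} [Field F₁] [Field Ft₁] [Field F₂] [Field Ft₂]
  [Algebra K F₁] [Algebra k Ft₁] [Algebra K F₂] [Algebra k Ft₂] [Algebra F₁ F₂] [Algebra Ft₁ Ft₂]

/-- the two reductions are compatible. -/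
def Compat (V₁ : VFF A π F₁ Ft₁) (V₂ : VFF A π F₂ Ft₂) : Prop :=
  ∀ (f : F₁) (ft : Ft₁), V₁.Red f ft → V₂.Red (algebraMap F₁ F₂ f) (algebraMap Ft₁ Ft₂ ft)

variable {V₁ : VFF A π F₁ Ft₁} {V₂ : VFF A π F₂ Ft₂}

/-- if `e ∉ O₁` then `e⁻¹` reduces to `0` (`VFF.red_inv_zero_of_not_mem`), so does its image, and `1 = e e⁻¹` would reduce to `0`. -/
theorem Compat.mem (hC : Compat V₁ V₂) {e : F₁} (he : algebraMap F₁ F₂ e ∈ V₂.O) : e ∈ V₁.O := by
  by_contra hne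
  have he0 : e ≠ 0 := fun h => hne (h ▸ V₁.O.zero_mem)
  have h1 : V₁.Red e⁻¹ 0 := V₁.red_inv_zero_of_not_mem hne
  have h2 := hC _ _ h1
  obtain ⟨et, het⟩ := V₂.exists_red he
  have h3 := het.mul h2
  rw [← map_mul, mul_inv_cancel₀ he0, map_one, map_zero, mul_zero] at h3
  exact one_ne_zero (V₂.red_one.unique h3)

theorem Compat.exists_red (hC : Compat V₁ V₂) {e : F₁} (he : algebraMap F₁ F₂ e ∈ V₂.O) :
    ∃ et : Ft₁, V₁.Red e et ∧ V₂.Red (algebraMap F₁ F₂ e) (algebraMap Ft₁ Ft₂ et) := by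
  obtain ⟨et, het⟩ := V₁.exists_red (hC.mem he)
  exact ⟨et, het, hC _ _ het⟩

theorem Compat.red_iff (hC : Compat V₁ V₂) {e : F₁} {et : Ft₁} :
    V₂.Red (algebraMap F₁ F₂ e) (algebraMap Ft₁ Ft₂ et) ↔ V₁.Red e et := by
  refine ⟨fun h => ?_, hC _ _⟩
  obtain ⟨et', het', het''⟩ := hC.exists_red h.mem
  have h1 : algebraMap Ft₁ Ft₂ et' = algebraMap Ft₁ Ft₂ et := het''.unique h
  rw [← (algebraMap Ft₁ Ft₂).injective h1]
  exact het'

/-- `ONAux.red_comb`. -/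
theorem Compat.red_comb (hC : Compat V₁ V₂) {n : ℕ} (bt : Fin n → Ft₂) (b : Fin n → F₂)
    (hb : ∀ i, V₂.Red (b i) (bt i)) (e : Fin n → F₁) (he : ∀ i, e i ∈ V₁.O) :
    ∃ et : Fin n → Ft₁, (∀ i, V₁.Red (e i) (et i)) ∧ V₂.Red (∑ i, e i • b i) (∑ i, et i • bt i) := by
  choose et het using fun i => V₁.exists_red (he i)
  refine ⟨et, het, ?_⟩
  refine V₂.red_sum _ _ _ fun i _ => ?_
  have := (hC _ _ (het i)).mul (hb i)
  simpa [Algebra.smul_def] using this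

/-- `ONAux.coord_mem`. -/
theorem Compat.coord_mem (hC : Compat V₁ V₂) {n : ℕ} (bt : Fin n → Ft₂)
    (hbt : LinearIndependent Ft₁ bt) (b : Fin n → F₂) (hb : ∀ i, V₂.Red (b i) (bt i))
    (e : Fin n → F₁) (hf : (∑ i, e i • b i) ∈ V₂.O) (i : Fin n) : e i ∈ V₁.O := by
  classical
  obtain ⟨j, -, hj⟩ := Finset.exists_max_image (Finset.univ : Finset (Fin n))
    (fun i => V₁.O.valuation (e i)) ⟨i, Finset.mem_univ i⟩
  by_cases hjO : e j ∈ V₁.O
  · rw [← ValuationSubring.valuation_le_one_iff] at hjO ⊢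
    exact (hj i (Finset.mem_univ i)).trans hjO
  exfalso
  have hj0 : e j ≠ 0 := fun h => hjO (h ▸ V₁.O.zero_mem)
  have hinv : V₂.Red (algebraMap F₁ F₂ (e j)⁻¹) 0 := by
    have := hC _ _ (V₁.red_inv_zero_of_not_mem hjO)
    rwa [map_zero] at this
  obtain ⟨ft, hft⟩ := V₂.exists_red hf
  have h1 : V₂.Red (algebraMap F₁ F₂ (e j)⁻¹ * ∑ i, e i • b i) 0 := by
    simpa using hinv.mul hft
  have hmem : ∀ l, (e j)⁻¹ * e l ∈ V₁.O := by
    intro l
    rw [← ValuationSubring.valuation_le_one_iff]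
    have hl := hj l (Finset.mem_univ l)
    have hvj : V₁.O.valuation (e j) ≠ 0 := (Valuation.ne_zero_iff _).2 hj0
    rw [map_mul, map_inv₀]
    exact (inv_mul_le_one₀ (zero_lt_iff.2 hvj)).2 hl
  obtain ⟨et, het, hsum⟩ := hC.red_comb bt b hb (fun l => (e j)⁻¹ * e l) hmem
  have h2 : (∑ l, ((e j)⁻¹ * e l) • b l) = algebraMap F₁ F₂ (e j)⁻¹ * ∑ i, e i • b i := by
    rw [Finset.mul_sum]
    refine Finset.sum_congr rfl fun l _ => ?_
    rw [mul_smul, Algebra.smul_def]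
  rw [h2] at hsum
  have h3 : ∑ l, et l • bt l = 0 := hsum.unique h1
  have h4 : et j = 0 := (Fintype.linearIndependent_iff.1 hbt) et h3 j
  have h5 : V₁.Red ((e j)⁻¹ * e j) 1 := by
    rw [inv_mul_cancel₀ hj0]
    exact V₁.red_one
  have h6 : et j = 1 := (het j).unique h5
  rw [h4] at h6
  exact zero_ne_one h6

/-- `ONAux.red_coord`. -/
theorem Compat.red_coord (hC : Compat V₁ V₂) {n : ℕ} (bt : Fin n → Ft₂)
    (hbt : LinearIndependent Ft₁ bt) (b : Fin n → F₂) (hb : ∀ i, V₂.Red (b i) (bt i))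
    (e : Fin n → F₁) {ft : Ft₂} (hf : V₂.Red (∑ i, e i • b i) ft) :
    ∃ et : Fin n → Ft₁, (∀ i, V₁.Red (e i) (et i)) ∧ ft = ∑ i, et i • bt i := by
  obtain ⟨et, het, hsum⟩ := hC.red_comb bt b hb e (hC.coord_mem bt hbt b hb e hf.mem)
  exact ⟨et, het, hf.unique hsum⟩

/-- `ONAux.linearIndependent_lift`. -/
theorem Compat.linearIndependent_lift (hC : Compat V₁ V₂) {n : ℕ} (bt : Fin n → Ft₂)
    (hbt : LinearIndependent Ft₁ bt) (b : Fin n → F₂) (hb : ∀ i, V₂.Red (b i) (bt i)) :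
    LinearIndependent F₁ b := by
  rw [Fintype.linearIndependent_iff]
  intro e he j
  by_contra hj
  have h0 : (∑ l, ((e j)⁻¹ * e l) • b l) = 0 := by
    have : (∑ l, ((e j)⁻¹ * e l) • b l) = (e j)⁻¹ • ∑ l, e l • b l := by
      rw [Finset.smul_sum]
      exact Finset.sum_congr rfl fun l _ => mul_smul _ _ _
    rw [this, he, smul_zero]
  obtain ⟨et, het, hsum⟩ := hC.red_coord bt hbt b hb (fun l => (e j)⁻¹ * e l) (ft := 0)
    (by rw [h0]; exact V₂.red_zero)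
  have h4 : et j = 0 := (Fintype.linearIndependent_iff.1 hbt) et hsum.symm j
  have h5 : V₁.Red ((e j)⁻¹ * e j) 1 := by
    rw [inv_mul_cancel₀ hj]
    exact V₁.red_one
  have h6 : et j = 1 := (het j).unique h5
  rw [h4] at h6
  exact zero_ne_one h6

/-- (O1) a relative orthonormal basis (`IsPreChart.exists_basis_of_lift`, `IsPreChart.nonempty_ONBasis`). -/
theorem Compat.exists_basis (hC : Compat V₁ V₂) [FiniteDimensional F₁ F₂] [FiniteDimensional Ft₁ Ft₂]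
    (hdeg : Module.finrank F₁ F₂ ≤ Module.finrank Ft₁ Ft₂) :
    ∃ (n : ℕ) (b : Module.Basis (Fin n) F₁ F₂) (bt : Module.Basis (Fin n) Ft₁ Ft₂),
      ∀ i, V₂.Red (b i) (bt i) := by
  let bt := Module.finBasis Ft₁ Ft₂
  choose b hb using fun i => V₂.exists_lift (bt i)
  have hli : LinearIndependent F₁ b := hC.linearIndependent_lift bt bt.linearIndependent b hb
  have h1 : Fintype.card (Fin (Module.finrank Ft₁ Ft₂)) ≤ Module.finrank F₁ F₂ :=
    hli.fintype_card_le_finrank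
  have h3 : Fintype.card (Fin (Module.finrank Ft₁ Ft₂)) = Module.finrank F₁ F₂ :=
    le_antisymm h1 (by rw [Fintype.card_fin]; exact hdeg)
  have hpos : 0 < Module.finrank Ft₁ Ft₂ := Module.finrank_pos
  have : Nonempty (Fin (Module.finrank Ft₁ Ft₂)) := ⟨⟨0, hpos⟩⟩
  exact ⟨_, basisOfLinearIndependentOfCardEqFinrank hli h3, bt, fun i => by
    rw [coe_basisOfLinearIndependentOfCardEqFinrank]; exact hb i⟩

/-- reduction commutes with determinants (`VFF.red_det`). -/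
theorem red_det (V₁ : VFF A π F₁ Ft₁) {n : ℕ} (M : Matrix (Fin n) (Fin n) F₁)
    (Mt : Matrix (Fin n) (Fin n) Ft₁) (h : ∀ i j, V₁.Red (M i j) (Mt i j)) :
    V₁.Red M.det Mt.det := by
  rw [Matrix.det_apply', Matrix.det_apply']
  refine V₁.red_sum _ _ _ fun σ _ => ?_
  refine VFF.Red.mul ?_ (V₁.red_prod _ _ _ fun i _ => h _ _)
  rcases Int.units_eq_one_or (Equiv.Perm.sign σ) with hs | hs <;> rw [hs]
  · simpa using V₁.red_one
  · simpa using V₁.red_one.neg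

/-- **(O3) the relative norm commutes with reduction** (`ONBasis.red_repr`, `ONBasis.red_leftMulMatrix`, `IsPreChart.red_norm`). -/
theorem Compat.red_norm (hC : Compat V₁ V₂) [FiniteDimensional F₁ F₂] [FiniteDimensional Ft₁ Ft₂]
    (hdeg : Module.finrank F₁ F₂ ≤ Module.finrank Ft₁ Ft₂) {t : F₂} {tt : Ft₂} (h : V₂.Red t tt) :
    V₁.Red (Algebra.norm F₁ t) (Algebra.norm Ft₁ tt) := by
  obtain ⟨n, b, bt, hb⟩ := hC.exists_basis hdeg
  have hrepr : ∀ {f : F₂} {ft : Ft₂}, V₂.Red f ft → ∀ i, V₁.Red (b.repr f i) (bt.repr ft i) := by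
    intro f ft hf i
    have hf' : V₂.Red (∑ l, b.repr f l • b l) ft := by rw [b.sum_repr]; exact hf
    obtain ⟨et, het, hsum⟩ := hC.red_coord bt bt.linearIndependent b hb (fun l => b.repr f l) hf'
    have : bt.repr ft i = et i := by
      rw [hsum, bt.repr_sum_self]
    rw [this]
    exact het i
  rw [Algebra.norm_eq_matrix_det b, Algebra.norm_eq_matrix_det bt]
  refine red_det V₁ _ _ fun i j => ?_
  rw [Algebra.leftMulMatrix_eq_repr_mul, Algebra.leftMulMatrix_eq_repr_mul]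
  exact hrepr (h.mul (hb j)) i

end Fermat.Agent.S15.B.Desc
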