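import Fermat.Agent.S15.B.Desc.Norm
import Fermat.Agent.S15.B.Desc.RelON
import Fermat.Agent.S15.B.Desc.Param
import Fermat.Agent.S15.B.Desc.Loc

/-!
# S15 / B / Desc / Abs : descent of good reduction along a finite map (abstract form)

`F₁ ⊆ F₂`, `Ft₁ ⊆ Ft₂`, compatible Gauss valuations `V₁`, `V₂`.  If `V₂` is good (for some coordinate `x`) and `y : F₁` is a pre-chart for `V₁` and for `V₂`
(full residue degree on both levels), then `y` is a chart for `V₁`: "a quotient of a smooth curve is smooth".  NO hypothesis on the degree `[F₂ : F₁]`, on ramification or on separability.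
-/

set_option autoImplicit false
set_option linter.unusedSectionVars false

namespace Fermat.Agent.S15.B.Desc

open AlgebraicCurve Fermat.Agent.S26 Fermat.Agent.S37.Red Fermat.Agent.S19.Geo0

variable {K k : Type*} [Field K] [Field k] {A : ValuationSubring K} {π : A →+* k}
variable {F₁ Ft₁ F₂ Ft₂ : Type*} [Field F₁] [Field Ft₁] [Field F₂] [Field Ft₂]
  [Algebra K F₁] [Algebra k Ft₁] [Algebra K F₂] [Algebra k Ft₂] [Algebra F₁ F₂] [Algebra Ft₁ Ft₂]
  [IsScalarTower K F₁ F₂] [IsScalarTower k Ft₁ Ft₂]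
  [IsAlgClosed K] [IsAlgClosed k] [FF1 K F₁] [FF1 k Ft₁] [FF1 K F₂] [FF1 k Ft₂]
variable {V₁ : VFF A π F₁ Ft₁} {V₂ : VFF A π F₂ Ft₂}

/-- **Descent of normality.** -/
theorem isChart_desc (hC : Compat V₁ V₂) {x : F₂} {xt : Ft₂} (hG : Good V₂ x xt) {y : F₁} {yt : Ft₁}
    (pc₁ : IsPreChart V₁ y yt)
    (pc₂ : IsPreChart V₂ (algebraMap F₁ F₂ y) (algebraMap Ft₁ Ft₂ yt)) : IsChart V₁ y yt := by
  have hyT : Transcendental K y := transcendental_of_red V₁ pc₁.red_y pc₁.trans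
  have hfd1 : FiniteDimensional F₁ F₂ := finite_of_transcendental hyT
  have hfd2 : FiniteDimensional Ft₁ Ft₂ := finite_of_transcendental pc₁.trans
  have hfd3 : FiniteDimensional (IntermediateField.adjoin k {yt}) Ft₁ :=
    finiteDimensional_adjoin_of_transcendental pc₁.trans
  have hdeg : Module.finrank F₁ F₂ ≤ Module.finrank Ft₁ Ft₂ := by
    have h1 := finrank_tower (Ω := K) (𝕃₂ := F₂) y
    have h2 := finrank_tower (Ω := k) (𝕃₂ := Ft₂) yt
    rw [pc₁.finrank_eq, pc₂.finrank_eq, ← h2] at h1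
    exact (Nat.eq_of_mul_eq_mul_left Module.finrank_pos h1).le
  refine ⟨pc₁.red_y, pc₁.trans, pc₁.deg, fun h hh => ?_⟩
  have hmem : h ∈ centerRing V₁ y := by
    refine mem_of_intK pc₁.trans (centerRing V₁ y) ?_ ⟨y, intA_self, pc₁.red_y⟩ ?_ hh
    · intro a
      obtain ⟨a', ha', rfl⟩ := exists_res_eq V₁.π_surjective a
      exact ⟨algebraMap K F₁ a', intA_algebraMap ha', V₁.red_const ha'⟩
    · intro c Q hQ
      obtain ⟨g, ⟨t, hred, hint⟩, h1, h0⟩ := exists_norm_param (𝕃₂ := Ft₂) pc₁.trans c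
        (fun g => ∃ t : F₂, V₂.Red t g ∧ IntK K (algebraMap F₁ F₂ y) t)
        (fun w hw => by
          obtain ⟨t, tt, hred, hint, hintt, h1, h0⟩ :=
            exists_param_int hG pc₂.red_y pc₂.trans c hw
          exact ⟨tt, ⟨t, hred, hint⟩, hintt, h1, h0⟩) hQ
      have hr := hC.red_norm hdeg hred
      exact ⟨Algebra.norm Ft₁ g, ⟨Algebra.norm F₁ t, pc₁.sat (intK_norm hint) hr.mem, hr⟩, h1, h0⟩
  exact hmem

/-- **Descent of good reduction.** -/
theorem good_desc (hC : Compat V₁ V₂) {x : F₂} {xt : Ft₂} (hG : Good V₂ x xt) {y : F₁} {yt : Ft₁}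
    (pc₁ : IsPreChart V₁ y yt)
    (pc₂ : IsPreChart V₂ (algebraMap F₁ F₂ y) (algebraMap Ft₁ Ft₂ yt)) : Good V₁ y yt := by
  refine ⟨isChart_desc hC hG pc₁ pc₂, isChart_desc hC hG pc₁.inv ?_⟩
  rw [map_inv₀, map_inv₀]
  exact pc₂.inv

end Fermat.Agent.S15.B.Desc
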