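import Fermat.Agent.S37.Red.NormPoly

/-!
# S15 / B / Desc / Loc : a subring of the integral closure which has parameters at all places is everything

`Ω` algebraically closed, `𝕃/Ω` a function field, `x` transcendental, `n = [𝕃 : Ω(x)]`, `R ⊆ 𝕃` a subring containing `Ω[x]`.
**Theorem** (`mem_of_intK`).  If for every `c : Ω` and every place `Q` over `c` there is `Z ∈ R` with a simple zero at `Q` and no other zero (and no pole) over `c`, then `R` contains every `h` integral over `Ω[x]`.
No finiteness of the integral closure, no separability.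
-/

set_option autoImplicit false
set_option linter.unusedSectionVars false

namespace Fermat.Agent.S15.B.Desc

open AlgebraicCurve Fermat.Agent.S26 Fermat.Agent.S37.Red Polynomial IntermediateField

variable {Ω 𝕃 : Type*} [Field Ω] [Field 𝕃] [Algebra Ω 𝕃]

/-- `f` is regular at all places over `x = c`. -/
def RegOver (x : 𝕃) (c : Ω) (f : 𝕃) : Prop := ∀ Q : Place Ω 𝕃, Over x c Q → Reg Q f

/-- an element of `Ω⟮x⟯` is a fraction of polynomials in `x`. -/
theorem loc0_exists_frac {x : 𝕃} (y : 𝕃) (hy : y ∈ Ω⟮x⟯) :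
    ∃ r s : Polynomial Ω, aeval x s ≠ 0 ∧ y * aeval x s = aeval x r := by
  obtain ⟨r, s, rfl⟩ := (IntermediateField.mem_adjoin_simple_iff Ω y).1 hy
  by_cases hs : aeval x s = 0
  · exact ⟨0, 1, by simp, by simp [hs]⟩
  · exact ⟨r, s, hs, div_mul_cancel₀ _ hs⟩

/-- dividing a relation by powers of `X - c`. -/
theorem loc0_primitive {x : 𝕃} (c : Ω) (hxc : x - algebraMap Ω 𝕃 c ≠ 0) {ι : Type*} [Fintype ι]
    (f : ι → 𝕃) (i₀ : ι) : ∀ (N : ℕ) (b : ι → Polynomial Ω), b i₀ ≠ 0 → (b i₀).natDegree ≤ N →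
      ∑ i, aeval x (b i) * f i = 0 →
      ∃ b' : ι → Polynomial Ω, (∃ i, (b' i).eval c ≠ 0) ∧ ∑ i, aeval x (b' i) * f i = 0 := by
  intro N
  induction N with
  | zero =>
    intro b hb hdeg hrel
    refine ⟨b, ⟨i₀, ?_⟩, hrel⟩
    rw [Polynomial.eq_C_of_natDegree_le_zero hdeg, eval_C]
    intro h0
    apply hb
    rw [Polynomial.eq_C_of_natDegree_le_zero hdeg, h0, C_0]
  | succ N ih =>
    intro b hb hdeg hrel
    by_cases h : ∃ i, (b i).eval c ≠ 0
    · exact ⟨b, h, hrel⟩
    · push Not at h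
      have hdvd : ∀ i, ∃ b', b i = (X - C c) * b' := fun i => dvd_iff_isRoot.2 (h i)
      choose b' hb' using hdvd
      have hb'0 : b' i₀ ≠ 0 := by
        intro h0
        apply hb
        rw [hb', h0, mul_zero]
      have hdeg' : (b i₀).natDegree = 1 + (b' i₀).natDegree := by
        rw [hb' i₀, natDegree_mul (X_sub_C_ne_zero c) hb'0, natDegree_X_sub_C]
      refine ih b' hb'0 (by omega) ?_
      have e : ∑ i, aeval x (b i) * f i
          = (x - algebraMap Ω 𝕃 c) * ∑ i, aeval x (b' i) * f i := by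
        rw [Finset.mul_sum]
        refine Finset.sum_congr rfl fun i _ => ?_
        rw [hb' i, map_mul, map_sub, aeval_X, aeval_C, mul_assoc]
      rw [e] at hrel
      exact (mul_eq_zero.1 hrel).resolve_left hxc

/-- **(L0)** more than `n` elements of `𝕃` satisfy a relation with coefficients in `Ω[x]`, NOT ALL DIVISIBLE BY `X - c`.
Proof.  `f` is not linearly independent over `Ω⟮x⟯` (`LinearIndependent.fintype_card_le_finrank`); clear denominators (`IntermediateField.mem_adjoin_simple_iff`, or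
`LinearIndependent.iff_fractionRing (Algebra.adjoin Ω {x}) Ω⟮x⟯` with `open scoped IntermediateField.algebraAdjoinAdjoin` and `S24.FF.exists_aeval_eq`): a nonzero family `b : ι → Ω[X]` with `∑ b i (x) f i = 0`.
Among all such families take one with `∑ natDegree` minimal (or divide by the gcd: `Finset.extract_gcd`); if all `b i (c) = 0`, write `b i = (X - C c) * b' i` (`dvd_iff_isRoot`) and cancel `x - c ≠ 0`. -/
theorem exists_primitive_relation {x : 𝕃} (hx : Transcendental Ω x)
    [FiniteDimensional Ω⟮x⟯ 𝕃] (c : Ω) {ι : Type*} [Fintype ι]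
    (hcard : Module.finrank Ω⟮x⟯ 𝕃 < Fintype.card ι) (f : ι → 𝕃) :
    ∃ b : ι → Polynomial Ω, (∃ i, (b i).eval c ≠ 0) ∧ ∑ i, aeval x (b i) * f i = 0 := by
  classical
  have hxc : x - algebraMap Ω 𝕃 c ≠ 0 := by
    intro h
    apply hx
    rw [sub_eq_zero.1 h]
    exact isAlgebraic_algebraMap c
  have hdep : ¬ LinearIndependent Ω⟮x⟯ f := fun hli =>
    absurd hli.fintype_card_le_finrank (not_le.2 hcard)
  obtain ⟨g, hg, i₀, hi₀⟩ := Fintype.not_linearIndependent_iff.1 hdep
  have hfrac : ∀ i, ∃ r s : Polynomial Ω, aeval x s ≠ 0 ∧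
      ((g i : Ω⟮x⟯) : 𝕃) * aeval x s = aeval x r := fun i => loc0_exists_frac _ (g i).2
  choose r s hs hrs using hfrac
  set P : 𝕃 := ∏ j, aeval x (s j) with hP
  have hP0 : P ≠ 0 := Finset.prod_ne_zero_iff.2 fun j _ => hs j
  let b : ι → Polynomial Ω := fun i => r i * ∏ j ∈ Finset.univ.erase i, s j
  have hb : ∀ i, aeval x (b i) = ((g i : Ω⟮x⟯) : 𝕃) * P := by
    intro i
    show aeval x (r i * ∏ j ∈ Finset.univ.erase i, s j) = _
    rw [map_mul, map_prod, ← hrs i, mul_assoc, hP,
      Finset.mul_prod_erase Finset.univ (fun j => aeval x (s j)) (Finset.mem_univ i)]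
  have hrel : ∑ i, aeval x (b i) * f i = 0 := by
    have e : ∑ i, aeval x (b i) * f i = P * ∑ i, g i • f i := by
      rw [Finset.mul_sum]
      refine Finset.sum_congr rfl fun i _ => ?_
      rw [hb i, Algebra.smul_def]
      show ((g i : Ω⟮x⟯) : 𝕃) * P * f i = P * (((g i : Ω⟮x⟯) : 𝕃) * f i)
      ring
    rw [e, hg, mul_zero]
  have hb0 : b i₀ ≠ 0 := by
    intro h0
    have h1 := hb i₀
    rw [h0, map_zero] at h1
    rcases mul_eq_zero.1 h1.symm with h2 | h2
    · exact hi₀ (Subtype.ext h2)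
    · exact hP0 h2
  exact loc0_primitive c hxc f i₀ _ b hb0 le_rfl hrel

end Fermat.Agent.S15.B.Desc
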