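import Fermat.Agent.S15.B.Desc.Loc0

/-!
# S15 / B / Desc / Loc1
(see `Loc0.lean` for the setting)
-/

set_option autoImplicit false
set_option linter.unusedSectionVars false

namespace Fermat.Agent.S15.B.Desc

open AlgebraicCurve Fermat.Agent.S26 Fermat.Agent.S37.Red Polynomial IntermediateField

variable {Ω 𝕃 : Type*} [Field Ω] [Field 𝕃] [Algebra Ω 𝕃]

/-- `(p(x) - p(c)) f / (x - c)` is regular over `c` if `f` is  (`X - C c ∣ p - C (p.eval c)`, `Reg.aeval`). -/
theorem regOver_sub_eval {x : 𝕃} (hx : Transcendental Ω x) (c : Ω) (p : Polynomial Ω) {f : 𝕃}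
    (hf : RegOver x c f) :
    RegOver x c ((aeval x p - algebraMap Ω 𝕃 (p.eval c)) * f / (x - algebraMap Ω 𝕃 c)) := by
  intro Q hQ
  obtain ⟨q, hq⟩ := X_sub_C_dvd_sub_C_eval (a := c) (p := p)
  have hne : x - algebraMap Ω 𝕃 c ≠ 0 := by
    intro h0
    apply hx
    rw [sub_eq_zero.mp h0]
    exact isAlgebraic_algebraMap c
  have h1 : aeval x p - algebraMap Ω 𝕃 (p.eval c) = (x - algebraMap Ω 𝕃 c) * aeval x q := by
    have h2 := congrArg (aeval x) hq
    rwa [map_sub, aeval_C, map_mul, map_sub, aeval_X, aeval_C] at h2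
  have h3 : (aeval x p - algebraMap Ω 𝕃 (p.eval c)) * f / (x - algebraMap Ω 𝕃 c)
      = aeval x q * f := by
    rw [h1]
    field_simp
  rw [h3]
  exact Reg.mul Q (Reg.aeval Q hQ.1 q) (hf Q hQ)

/-- **(L1)**  `r : Fin n → 𝕃` regular over `c`, no nontrivial `Ω`-combination of the `r i` is divisible by `x - c` (locally over `c`); `h` regular over `c`.
Then `a(x) h = ∑ b_i(x) r_i` with `a(c) ≠ 0`.
Proof.  (L0) for the `n + 1` elements `Fin.cons h r` (or `Option (Fin n)`): `a(x) h + ∑ b_i(x) r_i = 0`, not all of `a(c)`, `b_i(c)` zero.  If `a(c) = 0` then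
`∑ b_i(c) r_i = - [(a(x) - a(c)) h + ∑ (b_i(x) - b_i(c)) r_i]` is `(x - c) * (regular over c)` by `regOver_sub_eval`, so all `b_i(c) = 0` by `hind`: contradiction. -/
theorem exists_mul_eq_sum {x : 𝕃} (hx : Transcendental Ω x) [FiniteDimensional Ω⟮x⟯ 𝕃] (c : Ω)
    (r : Fin (Module.finrank Ω⟮x⟯ 𝕃) → 𝕃) (hr : ∀ i, RegOver x c (r i))
    (hind : ∀ l : Fin (Module.finrank Ω⟮x⟯ 𝕃) → Ω,
      RegOver x c ((∑ i, algebraMap Ω 𝕃 (l i) * r i) / (x - algebraMap Ω 𝕃 c)) → l = 0)
    {h : 𝕃} (hh : RegOver x c h) :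
    ∃ (a : Polynomial Ω) (b : Fin (Module.finrank Ω⟮x⟯ 𝕃) → Polynomial Ω), a.eval c ≠ 0 ∧
      aeval x a * h = ∑ i, aeval x (b i) * r i := by
  obtain ⟨b, ⟨i₀, hi₀⟩, hrel⟩ := exists_primitive_relation hx c
    (ι := Option (Fin (Module.finrank Ω⟮x⟯ 𝕃))) (by rw [Fintype.card_option, Fintype.card_fin]; omega)
    (fun o => o.elim h r)
  rw [Fintype.sum_option] at hrel
  simp only [Option.elim_none, Option.elim_some] at hrel
  refine ⟨b none, fun i => -(b (some i)), ?_, ?_⟩
  · intro ha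
    have hl : (fun i => (b (some i)).eval c) = 0 := by
      apply hind
      have e : (∑ i, algebraMap Ω 𝕃 ((b (some i)).eval c) * r i) / (x - algebraMap Ω 𝕃 c)
          = -((aeval x (b none) - algebraMap Ω 𝕃 ((b none).eval c)) * h / (x - algebraMap Ω 𝕃 c)
            + ∑ i, (aeval x (b (some i)) - algebraMap Ω 𝕃 ((b (some i)).eval c)) * r i
                / (x - algebraMap Ω 𝕃 c)) := by
        rw [← Finset.sum_div, ← add_div, ← neg_div]
        congr 1
        simp only [sub_mul, Finset.sum_sub_distrib]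
        rw [ha, map_zero, zero_mul, sub_zero]
        linear_combination hrel
      rw [e]
      intro Q hQ
      refine Reg.neg Q (Reg.add Q (regOver_sub_eval hx c _ hh Q hQ) (reg_sum Q _ _ fun i _ => ?_))
      exact regOver_sub_eval hx c _ (hr i) Q hQ
    cases i₀ with
    | none => exact hi₀ ha
    | some i => exact hi₀ (congrFun hl i)
  · simp only [map_neg, neg_mul, Finset.sum_neg_distrib]
    exact eq_neg_of_add_eq_zero_left hrel

end Fermat.Agent.S15.B.Desc
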