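import Fermat.Agent.S37.Mod.Inst
import Fermat.Prelude.Def_ModularCurve_HeckeOperator
import Fermat.Agent.S15.B.Desc.RelON

/-!
# S15 / B / Desc / ModBeta : the degeneracy map `f(q) ↦ f(q^r)`, `FF N → FF (N r)`, is compatible with the Gauss valuations
-/

set_option autoImplicit false
set_option linter.unusedSectionVars false

open AlgebraicCurve ModularCurve

namespace Fermat.Agent.S15.B.Desc

open Fermat.Agent.ES (Qb FF)
open Fermat.Agent.S37.Mod Fermat.Agent.S37.Red

noncomputable section

theorem coeffMap_qExp {R S : Type*} [CommRing R] [CommRing S] (f : R →+* S) (n : ℕ) [NeZero n]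
    (x : LaurentSeries R) : coeffMap f (qExpand R n x) = qExpand S n (coeffMap f x) := by
  ext k
  rw [coeffMap_coeff]
  by_cases hk : (n : ℤ) ∣ k
  · obtain ⟨m, rfl⟩ := hk
    rw [qExpand_coeff_mul, qExpand_coeff_mul, coeffMap_coeff]
  · rw [qExpand_coeff_of_not_dvd n _ hk, qExpand_coeff_of_not_dvd n _ hk, map_zero]

variable {N : ℕ} (r : ℕ) [NeZero N] [NeZero r] {A : ValuationSubring Qb}

theorem isI_qExpand {a : LaurentSeries A} (ha : IsI N A a) : IsI (N * r) A (qExpand A r a) := by
  rw [IsI, coeffMap_qExp]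
  exact (heckeBetaBar Qb N r ⟨io A a, ha⟩).2

theorem redRel_qExpand {f : LaurentSeries Qb} {u : LaurentSeries (kA A)} (h : RedRel N A f u) :
    RedRel (N * r) A (qExpand Qb r f) (qExpand (kA A) r u) := by
  obtain ⟨a, b, ha, hb, hrb, hf, hu⟩ := h
  refine ⟨qExpand A r a, qExpand A r b, isI_qExpand r ha, isI_qExpand r hb, ?_, ?_, ?_⟩
  · rw [coeffMap_qExp]
    intro h0
    exact hrb (qExpand_injective r (by rw [h0, map_zero]))
  · rw [coeffMap_qExp, coeffMap_qExp, ← map_mul, hf]
  · rw [coeffMap_qExp, coeffMap_qExp, ← map_mul, hu]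

variable (N A)

/-- `u(q) ↦ u(q^r)` on the residue fields. -/
def betaRes : resF N A →ₐ[kA A] resF (N * r) A where
  toFun u := ⟨qExpand (kA A) r (u : LaurentSeries (kA A)), by
    obtain ⟨f, hf⟩ := u.2
    exact ⟨_, redRel_qExpand r hf⟩⟩
  map_one' := Subtype.ext (map_one (qExpand (kA A) r))
  map_mul' _ _ := Subtype.ext (map_mul (qExpand (kA A) r) _ _)
  map_zero' := Subtype.ext (map_zero (qExpand (kA A) r))
  map_add' _ _ := Subtype.ext (map_add (qExpand (kA A) r) _ _)
  commutes' c := Subtype.ext <| by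
    show qExpand (kA A) r (algebraMap (kA A) (LaurentSeries (kA A)) c)
      = algebraMap (kA A) (LaurentSeries (kA A)) c
    rw [algebraMap_laurentSeries_eq_single, qExpand_single, mul_zero]

variable {N A}

@[simp] theorem coe_betaRes (u : resF N A) :
    (betaRes N r A u : LaurentSeries (kA A)) = qExpand (kA A) r (u : LaurentSeries (kA A)) := rfl

theorem red_beta {f : FF N} {u : resF N A} (h : (gaussVFF N A).Red f u) :
    (gaussVFF (N * r) A).Red (heckeBetaBar Qb N r f) (betaRes N r A u) := by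
  rw [red_iff] at h ⊢
  exact redRel_qExpand r h

end

end Fermat.Agent.S15.B.Desc
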