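import Fermat.Agent.S37.Mod.PreChart

/-!
# S15 / B / Desc / ModPre : `j_N = j(q^N)` is a pre-chart of the Gauss valuation of `FF N` at EVERY prime `ℓ ∤ N` (also `ℓ = 2, 3`)

From `Crux.GM.exists_degree_basis` (degree of `F_K / K(j_N)` and an integral basis, uniformly in the field `K`).
-/

set_option autoImplicit false
set_option linter.unusedSectionVars false

open AlgebraicCurve ModularCurve
open scoped IntermediateField

namespace Fermat.Agent.S15.B.Desc

open Fermat.Agent.ES (Qb FF)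
open Fermat.Agent.S26 (FF1)
open Fermat.Agent.S28 (V J)
open Fermat.Agent.Crux (GM.castS)
open Fermat.Agent.S37.Mod Fermat.Agent.S37.Red

noncomputable section

variable (N : ℕ) [NeZero N]

/-- the integral series `j(q^N)`. -/
abbrev jh : LaurentSeries ℤ := V ℤ N (J ℤ)

theorem jh_mem : GM.castS Qb (jh N) ∈ modularFunctionFieldFullC Qb N := by
  rw [Fermat.Agent.Crux.GM.CoordJ.castS_VJ]
  exact jqModCd_mem_full Qb N dvd_rfl

/-- `j(q^N)` as an element of `FF N`. -/
def jQ : FF N := zQ (jh N) (jh_mem N)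

/-- its reduction. -/
def jk (A : ValuationSubring Qb) : resF N A := zk A (jh N) (jh_mem N)

@[simp] theorem coe_jQ : (jQ N : LaurentSeries Qb) = V Qb N (J Qb) :=
  Fermat.Agent.Crux.GM.CoordJ.castS_VJ Qb N

@[simp] theorem coe_jk (A : ValuationSubring Qb) :
    (jk N A : LaurentSeries (kA A)) = V (kA A) N (J (kA A)) :=
  Fermat.Agent.Crux.GM.CoordJ.castS_VJ (kA A) N

theorem red_jQ (A : ValuationSubring Qb) : (gaussVFF N A).Red (jQ N) (jk N A) :=
  red_zQ A (jh N) (jh_mem N)

theorem transcendental_jk (A : ValuationSubring Qb) : Transcendental (kA A) (jk N A) := by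
  have hlead : (jh N).leadingCoeff = 1 := by
    rw [HahnSeries.leadingCoeff_eq, Fermat.Agent.Crux.GM.CoordJ.order_VJ,
      Fermat.Agent.Crux.GM.CoordJ.coeff_VJ_self]
  have h1 : Transcendental (kA A) (GM.castS (kA A) (jh N)) := by
    apply Fermat.Agent.Crux.GM.transcendental_of_order_neg
    rw [Fermat.Agent.Crux.GM.order_castS (jh N) hlead, Fermat.Agent.Crux.GM.CoordJ.order_VJ]
    have : (0 : ℤ) < N := by exact_mod_cast Nat.pos_of_ne_zero (NeZero.ne N)
    omega
  intro h2
  apply h1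
  have h3 := h2.algebraMap (A := LaurentSeries (kA A))
  exact h3

variable {N}

/-- **`j(q^N)` is a pre-chart at every prime not dividing the level.** -/
theorem isPreChart_j {ℓ : ℕ} (hℓ : ℓ.Prime) (hN : ¬ ℓ ∣ N) {A : ValuationSubring Qb}
    (hA : A.LiesOverPrime ℓ) : IsPreChart (gaussVFF N A) (jQ N) (jk N A) := by
  refine ⟨red_jQ N A, transcendental_jk N A, ?_⟩
  obtain ⟨c, hc0, hc⟩ := Fermat.Agent.Crux.GM.exists_degree_basis N
  have : CharP (kA A) ℓ := charP_kA hℓ hA
  have hQ : ∀ p : ℕ, p.Prime → p ∣ N → (p : Qb) ≠ 0 :=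
    fun p hp _ => by exact_mod_cast hp.ne_zero
  have hk : ∀ p : ℕ, p.Prime → p ∣ N → (p : kA A) ≠ 0 := by
    intro p hp hpN h0
    have h1 : ℓ ∣ p := (CharP.cast_eq_zero_iff (kA A) ℓ p).mp h0
    have h2 := (Nat.prime_dvd_prime_iff_eq hℓ hp).mp h1
    exact hN (h2 ▸ hpN)
  -- the degree in characteristic `0`
  have hdeg : Module.finrank Qb⟮jQ N⟯ (FF N) = c := by
    have h : modularFunctionFieldBar N = modularFunctionFieldFullC Qb N :=
      Fermat.Agent.S17.IsFFAux.laurentBaseChange_eq_fullC _ N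
    have h1 := Fermat.Agent.Crux.GM.relfinrank_bar_eq_finrank N (jQ N)
    have h2 := (hc Qb hQ).1
    rw [← h, ← coe_jQ N] at h2
    exact h1.symm.trans h2
  rw [hdeg]
  obtain ⟨b, hbmem, hli⟩ := (hc (kA A) hk).2
  have hbQ : ∀ i, GM.castS Qb (b i) ∈ modularFunctionFieldFullC Qb N := fun i =>
    Fermat.Agent.S28.monoS_le_full Qb N (Fermat.Agent.S28.coeffMap_mem_monoS _ N (hbmem i))
  have hfd : FiniteDimensional (kA A)⟮jk N A⟯ (resF N A) :=
    Fermat.Agent.S26.finiteDimensional_adjoin_of_transcendental (transcendental_jk N A)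
  have hmem : ∀ e : (kA A)⟮jk N A⟯,
      (((e : resF N A) : LaurentSeries (kA A))) ∈ (kA A)⟮V (kA A) N (J (kA A))⟯ := by
    intro e
    have h1 : ((kA A)⟮jk N A⟯).map (resF N A).val = (kA A)⟮V (kA A) N (J (kA A))⟯ := by
      rw [IntermediateField.adjoin_map, Set.image_singleton, ← coe_jk N A]
      rfl
    rw [← h1]
    exact ⟨(e : resF N A), e.2, rfl⟩
  have hli' : LinearIndependent (kA A)⟮jk N A⟯ (fun i => zk A (b i) (hbQ i)) := by
    rw [Fintype.linearIndependent_iff]
    intro e he i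
    have h2 : ∑ j, (⟨_, hmem (e j)⟩ : (kA A)⟮V (kA A) N (J (kA A))⟯) • GM.castS (kA A) (b j) = 0 := by
      have h3 := congrArg (fun z : resF N A => (z : LaurentSeries (kA A))) he
      simp only [IntermediateField.smul_def, smul_eq_mul] at h3 ⊢
      rw [IntermediateField.coe_sum] at h3
      exact h3
    have h4 := (Fintype.linearIndependent_iff.1 hli) _ h2 i
    have h5 : ((e i : resF N A) : LaurentSeries (kA A)) = 0 := congrArg Subtype.val h4
    exact Subtype.ext (Subtype.ext h5)
  simpa using hli'.fintype_card_le_finrank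

end

end Fermat.Agent.S15.B.Desc
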