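import Fermat.Agent.S15.B.Desc.Abs
import Fermat.Agent.S15.B.Desc.ModBeta
import Fermat.Agent.S15.B.Desc.ModPre
import Fermat.Agent.S19.Geo0.Inst

/-!
# S15 / B / Desc / Main : good reduction of `X₀(N)` at EVERY prime `e ∤ N` (also `e = 2, 3`, no admissibility)

`exists_good` : `Geo0.Good (gaussVFF N A) y yt ∧ Geo0.RatStr (αI N A) (gaussVFF N A) e y` with `y = j(q^N)`.
Descent (`good_desc`) along `f(q) ↦ f(q^r)`, `FF N → FF (N r)`, from the admissible level `N r` (`r ∈ {1, 2, 3}`), where `Geo0.Inst.exists_good_ratStr` applies.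
-/

set_option autoImplicit false
set_option linter.unusedSectionVars false
set_option linter.style.haveILetI false

open AlgebraicCurve ModularCurve

namespace Fermat.Agent.S15.B.Desc

open Fermat.Agent.ES (Qb FF)
open Fermat.Agent.S28 (V J)
open Fermat.Agent.S37.Mod Fermat.Agent.S37.Red Fermat.Agent.S19.Geo0

/-- `r = 1`, `2` (`ℓ = 3`, `N` odd) or `3` (`ℓ = 2`, `3 ∤ N`). -/
theorem exists_adm_mul (N ℓ : ℕ) (hℓ : ℓ.Prime) (hN : ¬ ℓ ∣ N) :
    ∃ r : ℕ, r ≠ 0 ∧ ¬ ℓ ∣ N * r ∧ Crux.Admissible ℓ (N * r) := by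
  by_cases hadm : Crux.Admissible ℓ N
  · exact ⟨1, one_ne_zero, by rwa [mul_one], by rwa [mul_one]⟩
  · unfold Crux.Admissible at hadm
    rw [not_and_or] at hadm
    rcases hadm with h | h
    · push Not at h
      obtain ⟨rfl, -⟩ := h
      exact ⟨2, two_ne_zero,
        fun h => hN ((Nat.Coprime.dvd_mul_right (by norm_num : Nat.Coprime 3 2)).mp h),
        fun _ => dvd_mul_left 2 N, fun h => by omega⟩
    · push Not at h
      obtain ⟨rfl, -⟩ := h
      exact ⟨3, three_ne_zero,
        fun h => hN ((Nat.Coprime.dvd_mul_right (by norm_num : Nat.Coprime 2 3)).mp h),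
        fun h => by omega, fun _ => dvd_mul_left 3 N⟩

variable {N : ℕ} [NeZero N] {A : ValuationSubring Qb}

theorem beta_jQ (r : ℕ) [NeZero r] : heckeBetaBar Qb N r (jQ N) = jQ (N * r) := by
  apply Subtype.ext
  rw [coe_heckeBetaBar, coe_jQ, coe_jQ, qExpand_qExpand]
  exact qExpand_congr (mul_comm r N) _

theorem betaRes_jk (r : ℕ) [NeZero r] : betaRes N r A (jk N A) = jk (N * r) A := by
  apply Subtype.ext
  rw [coe_betaRes, coe_jk, coe_jk, qExpand_qExpand]
  exact qExpand_congr (mul_comm r N) _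

theorem fixF_jQ : FixF (Inst.αI N A) (jQ N) := by
  intro σ
  apply Subtype.ext
  rw [Inst.coe_αI_smul]
  exact Fermat.Agent.Crux.GM.coeffMap_castS _ (jh N)

/-- **Good reduction at every prime not dividing the level**, coordinate `j(q^N)`. -/
theorem good_j {e : ℕ} (he : e.Prime) (heN : ¬ e ∣ N) (hA : A.LiesOverPrime e) :
    Good (gaussVFF N A) (jQ N) (jk N A) := by
  obtain ⟨r, hr, hM, hadm⟩ := exists_adm_mul N e he heN
  haveI : NeZero r := ⟨hr⟩
  obtain ⟨x, xt, hG, -⟩ := Inst.exists_good_ratStr (M := N * r) he hM hadm hA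
  letI : Algebra (FF N) (FF (N * r)) := (heckeBetaBar Qb N r).toRingHom.toAlgebra
  letI : Algebra (resF N A) (resF (N * r) A) := (betaRes N r A).toRingHom.toAlgebra
  haveI : IsScalarTower Qb (FF N) (FF (N * r)) :=
    IsScalarTower.of_algebraMap_eq fun c => ((heckeBetaBar Qb N r).commutes c).symm
  haveI : IsScalarTower (kA A) (resF N A) (resF (N * r) A) :=
    IsScalarTower.of_algebraMap_eq fun c => ((betaRes N r A).commutes c).symm
  have hC : Compat (gaussVFF N A) (gaussVFF (N * r) A) := fun f ft h => red_beta r h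
  have pc₂ : IsPreChart (gaussVFF (N * r) A) (algebraMap (FF N) (FF (N * r)) (jQ N))
      (algebraMap (resF N A) (resF (N * r) A) (jk N A)) := by
    have h1 : algebraMap (FF N) (FF (N * r)) (jQ N) = jQ (N * r) := beta_jQ r
    have h2 : algebraMap (resF N A) (resF (N * r) A) (jk N A) = jk (N * r) A := betaRes_jk r
    rw [h1, h2]
    exact isPreChart_j he hM hA
  exact good_desc hC hG (isPreChart_j he heN hA) pc₂

/-- **EXPORT.** -/
theorem exists_good (N e : ℕ) [NeZero N] (he : e.Prime) (heN : ¬ e ∣ N) {A : ValuationSubring Qb}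
    (hA : A.LiesOverPrime e) :
    ∃ (y : FF N) (yt : resF N A), Good (gaussVFF N A) y yt ∧
      RatStr (Inst.αI N A) (gaussVFF N A) (e : Qb) y :=
  ⟨jQ N, jk N A, good_j he heN hA, Inst.ratStr he hA fixF_jQ⟩

end Fermat.Agent.S15.B.Desc
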