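import Fermat.Agent.S15.B.Desc.Norm0

/-!
# S15 / B / Desc / Norm : the norm of a parameter is a parameter
(setting and (SF) in `Norm0.lean`)
-/

set_option autoImplicit false
set_option linter.unusedSectionVars false

namespace Fermat.Agent.S15.B.Desc

open AlgebraicCurve Fermat.Agent.S26 Fermat.Agent.S37.Red Polynomial IntermediateField

variable {Ω 𝕃₁ 𝕃₂ : Type*} [Field Ω] [Field 𝕃₁] [Field 𝕃₂] [Algebra Ω 𝕃₁] [Algebra Ω 𝕃₂]
  [Algebra 𝕃₁ 𝕃₂] [IsScalarTower Ω 𝕃₁ 𝕃₂] [IsAlgClosed Ω] [FF1 Ω 𝕃₁] [FF1 Ω 𝕃₂]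

/-- the sum over a fibre as a `Finset` sum. -/
theorem Norm_finsum_over {𝕃 : Type*} [Field 𝕃] [Algebra Ω 𝕃] [FF1 Ω 𝕃] {x : 𝕃}
    (hx : Transcendental Ω x) (c : Ω) (f : Place Ω 𝕃 → ℤ) :
    ∑ᶠ (Q : Place Ω 𝕃) (_ : Over x c Q), f Q = ∑ Q ∈ (finite_over hx c).toFinset, f Q :=
  finsum_mem_eq_finite_toFinset_sum f (finite_over hx c)

/-- the orders of the norm of an integral element over `c` are `≥ 0`. -/
theorem Norm_ord_norm_nonneg {x : 𝕃₁} (hx : Transcendental Ω x) {g : 𝕃₂}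
    (hg : IntK Ω (algebraMap 𝕃₁ 𝕃₂ x) g) {c : Ω} {Q : Place Ω 𝕃₁} (hQ : Over x c Q) :
    0 ≤ Q.ord (Algebra.norm 𝕃₁ g) := by
  have hfd : FiniteDimensional 𝕃₁ 𝕃₂ := finite_of_transcendental (Ω := Ω) (𝕃₂ := 𝕃₂) hx
  exact (reg_iff_ord Q).1 ((intK_norm hg).reg Q hQ.1)

/-- (U) a unit over `c` has a norm which is a unit over `c`  ((SF); all terms on the left are `≥ 0` by `intK_norm`, `IntK.reg`;
finiteness of the index set: `finite_over`). -/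
theorem ord_norm_eq_zero {x : 𝕃₁} (hx : Transcendental Ω x) {g : 𝕃₂}
    (hg : IntK Ω (algebraMap 𝕃₁ 𝕃₂ x) g) (hg0 : g ≠ 0) (c : Ω)
    (h : ∀ w : Place Ω 𝕃₂, Over (algebraMap 𝕃₁ 𝕃₂ x) c w → w.ord g = 0)
    {Q : Place Ω 𝕃₁} (hQ : Over x c Q) : Q.ord (Algebra.norm 𝕃₁ g) = 0 := by
  have hx₂ : Transcendental Ω (algebraMap 𝕃₁ 𝕃₂ x) := transcendental_map hx
  have hSF := sum_ord_norm hx hg hg0 c
  rw [Norm_finsum_over hx c, Norm_finsum_over hx₂ c] at hSF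
  have h0 : ∑ w ∈ (finite_over hx₂ c).toFinset, w.ord g = 0 :=
    Finset.sum_eq_zero fun w hw => h w ((finite_over hx₂ c).mem_toFinset.1 hw)
  rw [h0] at hSF
  have h1 := (Finset.sum_eq_zero_iff_of_nonneg (fun Q' hQ' =>
    Norm_ord_norm_nonneg hx hg ((finite_over hx c).mem_toFinset.1 hQ'))).1 hSF
  exact h1 Q ((finite_over hx c).mem_toFinset.2 hQ)

/-- (P) the norm of a function with exactly one zero over `c`, which is simple, has exactly one zero over `c`, which is simple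
((SF) + `S19.Geo0.finsum_mem_eq_one_aux`). -/
theorem exists_ord_norm_eq_one {x : 𝕃₁} (hx : Transcendental Ω x) {g : 𝕃₂}
    (hg : IntK Ω (algebraMap 𝕃₁ 𝕃₂ x) g) (c : Ω) {w : Place Ω 𝕃₂}
    (hw : Over (algebraMap 𝕃₁ 𝕃₂ x) c w) (h1 : w.ord g = 1)
    (h0 : ∀ w' : Place Ω 𝕃₂, Over (algebraMap 𝕃₁ 𝕃₂ x) c w' → w' ≠ w → w'.ord g = 0) :
    ∃ Q : Place Ω 𝕃₁, Over x c Q ∧ Q.ord (Algebra.norm 𝕃₁ g) = 1 ∧
      ∀ Q' : Place Ω 𝕃₁, Over x c Q' → Q' ≠ Q → Q'.ord (Algebra.norm 𝕃₁ g) = 0 := by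
  classical
  have hx₂ : Transcendental Ω (algebraMap 𝕃₁ 𝕃₂ x) := transcendental_map hx
  have hg0 : g ≠ 0 := by
    rintro rfl
    rw [Place.ord_zero] at h1
    exact zero_ne_one h1
  have hSF := sum_ord_norm hx hg hg0 c
  have h2 : ∑ᶠ (w : Place Ω 𝕃₂) (_ : Over (algebraMap 𝕃₁ 𝕃₂ x) c w), w.ord g = 1 := by
    rw [Norm_finsum_over hx₂ c, Finset.sum_eq_single w, h1]
    · intro w' hw' hne
      exact h0 w' ((finite_over hx₂ c).mem_toFinset.1 hw') hne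
    · intro hn
      exact absurd ((finite_over hx₂ c).mem_toFinset.2 hw) hn
  rw [h2] at hSF
  obtain ⟨Q, hQ, hQ1, hQ0⟩ := Fermat.Agent.S19.Geo0.finsum_mem_eq_one_aux
    {Q : Place Ω 𝕃₁ | Over x c Q} (fun Q => Q.ord (Algebra.norm 𝕃₁ g))
    ((finite_over hx c).subset Set.inter_subset_left)
    (fun Q hQ => Norm_ord_norm_nonneg hx hg hQ) hSF
  exact ⟨Q, hQ, hQ1, hQ0⟩

/-- **The norm of a parameter is a parameter.**  Suppose that for every place `w` of `𝕃₂` over `c` there is `g_w` with property `P`, integral over `Ω[x₂]`, with a simple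
zero at `w` and no other zero over `c`.  Then for every place `Q` of `𝕃₁` over `c` one of the norms `N g_w` has a simple zero at `Q` and no other zero over `c`.

Proof.  By (P) each `N g_w` has exactly one zero `q(w)` over `c`, and it is simple.  Claim: `Q = q(w)` for some `w`.  If not, `ord_Q (N g_w) = 0` for all `w | c`.
Let `T` = the places of `𝕃₂` over `c` (`finite_over`), `e_w = ord_w (x₂ - c) ≥ 1`, `Π = ∏_{w ∈ T} g_w ^ e_w`; `ρ = (x₂ - c) / Π` has order `0` at all `w | c`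
(`NormPoly.ord_prod_pow`, exactly as in `NormPoly.rootMultiplicity_eq_sum`); `exists_clear_poles` (`S = {c}`): `u = s(x₂) ρ` is integral, `s(c) ≠ 0`, and `u` has order `0` over `c`.
Norms: `N u * ∏ (N g_w) ^ e_w = N (s(x₂) (x₂ - c)) = (s(x) (x - c)) ^ n`, `n = [𝕃₂ : 𝕃₁] ≥ 1` (`Algebra.norm_algebraMap`).  Orders at `Q`: the left side has order `0` by (U), the right side has order
`n * ord_Q (x - c) > 0` (`over_iff_ord`, `ord_aeval_eq_zero`).  Contradiction. -/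
theorem exists_norm_param {x : 𝕃₁} (hx : Transcendental Ω x) (c : Ω) (P : 𝕃₂ → Prop)
    (H : ∀ w : Place Ω 𝕃₂, Over (algebraMap 𝕃₁ 𝕃₂ x) c w → ∃ g : 𝕃₂, P g ∧
      IntK Ω (algebraMap 𝕃₁ 𝕃₂ x) g ∧ w.ord g = 1 ∧
      ∀ w' : Place Ω 𝕃₂, Over (algebraMap 𝕃₁ 𝕃₂ x) c w' → w' ≠ w → w'.ord g = 0)
    {Q : Place Ω 𝕃₁} (hQ : Over x c Q) :
    ∃ g : 𝕃₂, P g ∧ Q.ord (Algebra.norm 𝕃₁ g) = 1 ∧
      ∀ Q' : Place Ω 𝕃₁, Over x c Q' → Q' ≠ Q → Q'.ord (Algebra.norm 𝕃₁ g) = 0 := by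
  classical
  have hx₂ : Transcendental Ω (algebraMap 𝕃₁ 𝕃₂ x) := transcendental_map hx
  have hfd : FiniteDimensional 𝕃₁ 𝕃₂ := finite_of_transcendental (Ω := Ω) (𝕃₂ := 𝕃₂) hx
  set x₂ : 𝕃₂ := algebraMap 𝕃₁ 𝕃₂ x with hx₂def
  by_contra hcon
  -- choice of the `g_w`
  have H' : ∀ w : Place Ω 𝕃₂, ∃ g : 𝕃₂, Over x₂ c w → (P g ∧ IntK Ω x₂ g ∧ w.ord g = 1 ∧
      ∀ w' : Place Ω 𝕃₂, Over x₂ c w' → w' ≠ w → w'.ord g = 0) := by
    intro w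
    by_cases hw : Over x₂ c w
    · obtain ⟨g, hg⟩ := H w hw
      exact ⟨g, fun _ => hg⟩
    · exact ⟨0, fun h => absurd h hw⟩
  choose G hG using H'
  set T : Finset (Place Ω 𝕃₂) := (finite_over hx₂ c).toFinset with hTdef
  have hT : ∀ w, w ∈ T ↔ Over x₂ c w := fun w => (finite_over hx₂ c).mem_toFinset
  have hG0 : ∀ w ∈ T, G w ≠ 0 := by
    intro w hw h0
    have h1 := (hG w ((hT w).1 hw)).2.2.1
    rw [h0, Place.ord_zero] at h1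
    exact zero_ne_one h1
  have hN0 : ∀ f : 𝕃₂, f ≠ 0 → Algebra.norm 𝕃₁ f ≠ 0 := fun f hf =>
    fun h => hf (Algebra.norm_eq_zero_iff.1 h)
  -- the norms of the `g_w` are units at `Q`
  have hQG : ∀ w ∈ T, Q.ord (Algebra.norm 𝕃₁ (G w)) = 0 := by
    intro w hw
    obtain ⟨hP, hint, h1, h0⟩ := hG w ((hT w).1 hw)
    obtain ⟨q, hq, hq1, hq0⟩ := exists_ord_norm_eq_one hx hint c ((hT w).1 hw) h1 h0
    by_cases hqQ : Q = q
    · exact absurd ⟨G w, hP, by rw [hqQ]; exact hq1, by rw [hqQ]; exact hq0⟩ hcon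
    · exact hq0 Q hQ hqQ
  -- the factorisation of `x₂ - c`
  have hxc0 : x₂ - algebraMap Ω 𝕃₂ c ≠ 0 := FFInt.sub_ne_zero hx₂ c
  set e : Place Ω 𝕃₂ → ℕ := fun w => (w.ord (x₂ - algebraMap Ω 𝕃₂ c)).toNat with he
  have heord : ∀ w ∈ T, (e w : ℤ) = w.ord (x₂ - algebraMap Ω 𝕃₂ c) := by
    intro w hw
    exact Int.toNat_of_nonneg ((over_iff_ord hx₂).1 ((hT w).1 hw)).le
  set Pi : 𝕃₂ := ∏ w ∈ T, G w ^ e w with hPi
  have hPi0 : Pi ≠ 0 := Finset.prod_ne_zero_iff.2 fun w hw => pow_ne_zero _ (hG0 w hw)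
  have hPiord : ∀ w' ∈ T, w'.ord Pi = w'.ord (x₂ - algebraMap Ω 𝕃₂ c) := by
    intro w' hw'
    rw [hPi, NormPoly.ord_prod_pow w' T G e hG0, Finset.sum_eq_single w',
      (hG w' ((hT w').1 hw')).2.2.1, mul_one, heord w' hw']
    · intro w hw hne
      rw [(hG w ((hT w).1 hw)).2.2.2 w' ((hT w').1 hw') hne.symm, mul_zero]
    · intro h; exact absurd hw' h
  have hρ : ∀ w : Place Ω 𝕃₂, Over x₂ c w → w.ord ((x₂ - algebraMap Ω 𝕃₂ c) / Pi) = 0 := by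
    intro w hw
    rw [Fermat.Agent.S24.FF.ord_div w hxc0 hPi0, hPiord w ((hT w).2 hw), sub_self]
  obtain ⟨s, hsm, hs, hint⟩ := exists_clear_poles hx₂ ((x₂ - algebraMap Ω 𝕃₂ c) / Pi) {c}
    (fun w hw hc => by rw [reg_iff_ord, hρ w ⟨hw, hc⟩])
  have hsc : s.eval c ≠ 0 := hs c rfl
  have hs0 : aeval x₂ s ≠ 0 := by
    intro h
    exact hsm.ne_zero ((transcendental_iff_injective.1 hx₂) (h.trans (map_zero _).symm))
  have hs0' : aeval x s ≠ 0 := by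
    intro h
    exact hsm.ne_zero ((transcendental_iff_injective.1 hx) (h.trans (map_zero _).symm))
  set u : 𝕃₂ := aeval x₂ s * ((x₂ - algebraMap Ω 𝕃₂ c) / Pi) with hu
  have hu0 : u ≠ 0 := mul_ne_zero hs0 (div_ne_zero hxc0 hPi0)
  have huord : ∀ w : Place Ω 𝕃₂, Over x₂ c w → w.ord u = 0 := by
    intro w hw
    rw [hu, w.ord_mul hs0 (div_ne_zero hxc0 hPi0), ord_aeval_eq_zero hw hsc, hρ w hw, add_zero]
  have hQu : Q.ord (Algebra.norm 𝕃₁ u) = 0 := ord_norm_eq_zero hx hint hu0 c huord hQ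
  -- norms
  have hprod : u * Pi = algebraMap 𝕃₁ 𝕃₂ (aeval x s * (x - algebraMap Ω 𝕃₁ c)) := by
    rw [map_mul, ← aeval_map, map_sub, ← IsScalarTower.algebraMap_apply Ω 𝕃₁ 𝕃₂, hu, ← hx₂def]
    field_simp
  have hnorm := congrArg (Algebra.norm 𝕃₁) hprod
  rw [map_mul, Algebra.norm_algebraMap, hPi, map_prod] at hnorm
  have hnorm' : Algebra.norm 𝕃₁ u * ∏ w ∈ T, (Algebra.norm 𝕃₁ (G w)) ^ e w
      = (aeval x s * (x - algebraMap Ω 𝕃₁ c)) ^ Module.finrank 𝕃₁ 𝕃₂ := by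
    rw [← hnorm]
    congr 1
    exact Finset.prod_congr rfl fun w _ => (map_pow _ _ _).symm
  have hxc0' : x - algebraMap Ω 𝕃₁ c ≠ 0 := FFInt.sub_ne_zero hx c
  have hL : Q.ord (Algebra.norm 𝕃₁ u * ∏ w ∈ T, (Algebra.norm 𝕃₁ (G w)) ^ e w) = 0 := by
    rw [Q.ord_mul (hN0 u hu0) (Finset.prod_ne_zero_iff.2 fun w hw =>
        pow_ne_zero _ (hN0 _ (hG0 w hw))), hQu, zero_add,
      NormPoly.ord_prod_pow Q T (fun w => Algebra.norm 𝕃₁ (G w)) e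
        (fun w hw => hN0 _ (hG0 w hw))]
    exact Finset.sum_eq_zero fun w hw => by rw [hQG w hw, mul_zero]
  have hR : 0 < Q.ord ((aeval x s * (x - algebraMap Ω 𝕃₁ c)) ^ Module.finrank 𝕃₁ 𝕃₂) := by
    rw [Fermat.Agent.S24.FF.ord_pow, Q.ord_mul hs0' hxc0', ord_aeval_eq_zero hQ hsc, zero_add]
    have hn : 0 < Module.finrank 𝕃₁ 𝕃₂ := Module.finrank_pos
    exact mul_pos (by exact_mod_cast hn) ((over_iff_ord hx).1 hQ)
  rw [← hnorm', hL] at hR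
  exact lt_irrefl _ hR

end Fermat.Agent.S15.B.Desc
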