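import Fermat.Agent.S15.B.Desc.Tower
import Fermat.Agent.S19.Geo0.Center

/-!
# S15 / B / Desc / Norm : orders of the relative norm `N = Algebra.norm 𝕃₁ : 𝕃₂ → 𝕃₁` (ANY characteristic, no separability)

`Ω` algebraically closed, `𝕃₁ ⊆ 𝕃₂` function fields over `Ω`, `x : 𝕃₁` transcendental, `x₂ = algebraMap 𝕃₁ 𝕃₂ x`.

* `intK_norm`      : `g` integral over `Ω[x₂]` ⇒ `N g` integral over `Ω[x]`;
* `sum_ord_norm`   : (SF) `∑_{Q | c} ord_Q (N g) = ∑_{w | c} ord_w g`  (two applications of `S37.Red.exists_norm_poly` + `norm_tower`);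
* `exists_norm_param` : **the norm of a parameter is a parameter.**
-/

set_option autoImplicit false
set_option linter.unusedSectionVars false

namespace Fermat.Agent.S15.B.Desc

open AlgebraicCurve Fermat.Agent.S26 Fermat.Agent.S37.Red Polynomial IntermediateField

variable {Ω 𝕃₁ 𝕃₂ : Type*} [Field Ω] [Field 𝕃₁] [Field 𝕃₂] [Algebra Ω 𝕃₁] [Algebra Ω 𝕃₂]
  [Algebra 𝕃₁ 𝕃₂] [IsScalarTower Ω 𝕃₁ 𝕃₂]

theorem transcendental_map {x : 𝕃₁} (hx : Transcendental Ω x) :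
    Transcendental Ω (algebraMap 𝕃₁ 𝕃₂ x) :=
  (transcendental_algebraMap_iff (algebraMap 𝕃₁ 𝕃₂).injective).2 hx

/-- `aeval x₂ p = algebraMap (aeval x p)`. -/
theorem aeval_map (x : 𝕃₁) (p : Polynomial Ω) :
    aeval (algebraMap 𝕃₁ 𝕃₂ x) p = algebraMap 𝕃₁ 𝕃₂ (aeval x p) :=
  Polynomial.aeval_algebraMap_apply 𝕃₂ x p

theorem evK_map (x : 𝕃₁) :
    (algebraMap 𝕃₁ 𝕃₂).comp (evK Ω x) = evK Ω (algebraMap 𝕃₁ 𝕃₂ x) := by
  refine RingHom.ext fun p => ?_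
  rw [RingHom.comp_apply, evK_apply, evK_apply, aeval_map]

/-- `f` integral over `Ω[x]` ⇒ its image is integral over `Ω[x₂]`. -/
theorem intK_map {x f : 𝕃₁} (hf : IntK Ω x f) :
    IntK Ω (algebraMap 𝕃₁ 𝕃₂ x) (algebraMap 𝕃₁ 𝕃₂ f) := by
  obtain ⟨P, hP, h0⟩ := hf
  refine ⟨P, hP, ?_⟩
  rw [← evK_map, ← Polynomial.hom_eval₂, h0, map_zero]

/-- (T1)  `Algebra.isIntegral_norm` for `R = Ω[X]` acting through `X ↦ x` (`letI := (evK Ω x).toAlgebra`, ... ), or for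
`R = Algebra.adjoin Ω {x}` and `intK_iff_isIntegral`. -/
theorem intK_norm [FiniteDimensional 𝕃₁ 𝕃₂] {x : 𝕃₁} {g : 𝕃₂} (hg : IntK Ω (algebraMap 𝕃₁ 𝕃₂ x) g) :
    IntK Ω x (Algebra.norm 𝕃₁ g) := by
  let _ : Algebra (Polynomial Ω) 𝕃₁ := (evK Ω x).toAlgebra
  let _ : Algebra (Polynomial Ω) 𝕃₂ := (evK Ω (algebraMap 𝕃₁ 𝕃₂ x)).toAlgebra
  have : IsScalarTower (Polynomial Ω) 𝕃₁ 𝕃₂ :=
    IsScalarTower.of_algebraMap_eq fun p => (aeval_map x p)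
  have hg' : IsIntegral (Polynomial Ω) g := hg
  exact Algebra.isIntegral_norm 𝕃₁ hg'

variable [IsAlgClosed Ω] [FF1 Ω 𝕃₁] [FF1 Ω 𝕃₂]

/-- `finite_tower` + `S26.finiteDimensional_adjoin_of_transcendental`. -/
theorem finite_of_transcendental {x : 𝕃₁} (hx : Transcendental Ω x) : FiniteDimensional 𝕃₁ 𝕃₂ := by
  have : FiniteDimensional Ω⟮algebraMap 𝕃₁ 𝕃₂ x⟯ 𝕃₂ :=
    finiteDimensional_adjoin_of_transcendental (transcendental_map hx)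
  exact finite_tower (Ω := Ω) x

/-- **(SF)**  `exists_norm_poly` for `(𝕃₂, x₂, g)` gives `G₂`, for `(𝕃₁, x, N g)` gives `G₁`; `norm_tower` and `aeval_map` give
`aeval x₂ G₁ = aeval x₂ G₂`, so `G₁ = G₂` (`x₂` transcendental). -/
theorem sum_ord_norm {x : 𝕃₁} (hx : Transcendental Ω x) {g : 𝕃₂}
    (hg : IntK Ω (algebraMap 𝕃₁ 𝕃₂ x) g) (hg0 : g ≠ 0) (c : Ω) :
    ∑ᶠ (Q : Place Ω 𝕃₁) (_ : Over x c Q), Q.ord (Algebra.norm 𝕃₁ g)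
      = ∑ᶠ (w : Place Ω 𝕃₂) (_ : Over (algebraMap 𝕃₁ 𝕃₂ x) c w), w.ord g := by
  have hfd1 : FiniteDimensional Ω⟮x⟯ 𝕃₁ := finiteDimensional_adjoin_of_transcendental hx
  have hfd : FiniteDimensional 𝕃₁ 𝕃₂ := finite_of_transcendental hx
  have hx₂ : Transcendental Ω (algebraMap 𝕃₁ 𝕃₂ x) := transcendental_map hx
  obtain ⟨G₂, -, hG₂, h₂⟩ := exists_norm_poly hx₂ hg hg0
  have hN0 : Algebra.norm 𝕃₁ g ≠ 0 := Algebra.norm_ne_zero_iff.2 hg0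
  obtain ⟨G₁, -, hG₁, h₁⟩ := exists_norm_poly hx (intK_norm hg) hN0
  have h := norm_tower (Ω := Ω) x g
  rw [hG₁, hG₂, ← aeval_map] at h
  have heq : G₁ = G₂ := (transcendental_iff_injective.1 hx₂) h
  rw [← h₁ c, ← h₂ c, heq]

end Fermat.Agent.S15.B.Desc
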