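import Fermat.Agent.S37.Red.NormPoly

/-!
# S15 / B / Desc / Tower : a tower `Ω(x) ⊆ 𝕃₁ ⊆ 𝕃₂` of function fields (ANY characteristic)

`x : 𝕃₁`, `x₂ = algebraMap 𝕃₁ 𝕃₂ x`.  The subfields `Ω⟮x⟯ ⊆ 𝕃₁` and `Ω⟮x₂⟯ ⊆ 𝕃₂` are identified by `adjEquiv`;
finiteness, multiplicativity of degrees and transitivity of norms in this language.
-/

set_option autoImplicit false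

namespace Fermat.Agent.S15.B.Desc

open AlgebraicCurve Fermat.Agent.S26 Fermat.Agent.S37.Red Polynomial IntermediateField

variable {Ω 𝕃₁ 𝕃₂ : Type*} [Field Ω] [Field 𝕃₁] [Field 𝕃₂] [Algebra Ω 𝕃₁] [Algebra Ω 𝕃₂]
  [Algebra 𝕃₁ 𝕃₂] [IsScalarTower Ω 𝕃₁ 𝕃₂]

theorem map_adjoin_simple (x : 𝕃₁) :
    (Ω⟮x⟯).map (IsScalarTower.toAlgHom Ω 𝕃₁ 𝕃₂) = Ω⟮algebraMap 𝕃₁ 𝕃₂ x⟯ := by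
  rw [IntermediateField.adjoin_map, Set.image_singleton]
  rfl

/-- `Ω(x) ≃ Ω(x₂)`. -/
noncomputable def adjEquiv (x : 𝕃₁) : Ω⟮x⟯ ≃ₐ[Ω] Ω⟮algebraMap 𝕃₁ 𝕃₂ x⟯ :=
  (IntermediateField.equivMap Ω⟮x⟯ (IsScalarTower.toAlgHom Ω 𝕃₁ 𝕃₂)).trans
    (IntermediateField.equivOfEq (map_adjoin_simple x))

theorem coe_adjEquiv (x : 𝕃₁) (a : Ω⟮x⟯) :
    ((adjEquiv (𝕃₂ := 𝕃₂) x a : Ω⟮algebraMap 𝕃₁ 𝕃₂ x⟯) : 𝕃₂) = algebraMap 𝕃₁ 𝕃₂ (a : 𝕃₁) := rfl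

theorem adj_comp (x : 𝕃₁) :
    RingHom.comp (algebraMap Ω⟮algebraMap 𝕃₁ 𝕃₂ x⟯ 𝕃₂)
        ((adjEquiv (Ω := Ω) (𝕃₂ := 𝕃₂) x).toRingEquiv : Ω⟮x⟯ →+* Ω⟮algebraMap 𝕃₁ 𝕃₂ x⟯)
      = RingHom.comp ((RingEquiv.refl 𝕃₂ : 𝕃₂ ≃+* 𝕃₂) : 𝕃₂ →+* 𝕃₂) (algebraMap Ω⟮x⟯ 𝕃₂) := by
  ext a
  rfl

theorem finite_tower (x : 𝕃₁) [FiniteDimensional Ω⟮algebraMap 𝕃₁ 𝕃₂ x⟯ 𝕃₂] :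
    FiniteDimensional 𝕃₁ 𝕃₂ := by
  haveI : Module.Finite Ω⟮x⟯ 𝕃₂ :=
    Module.Finite.of_equiv_equiv (adjEquiv (Ω := Ω) (𝕃₂ := 𝕃₂) x).toRingEquiv.symm
      (RingEquiv.refl 𝕃₂) (by
        ext a
        obtain ⟨b, rfl⟩ := (adjEquiv (Ω := Ω) (𝕃₂ := 𝕃₂) x).surjective a
        simp
        rfl)
  exact Module.Finite.of_restrictScalars_finite Ω⟮x⟯ 𝕃₁ 𝕃₂

theorem finrank_tower (x : 𝕃₁) :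
    Module.finrank Ω⟮x⟯ 𝕃₁ * Module.finrank 𝕃₁ 𝕃₂
      = Module.finrank Ω⟮algebraMap 𝕃₁ 𝕃₂ x⟯ 𝕃₂ := by
  rw [Module.finrank_mul_finrank]
  exact Algebra.finrank_eq_of_equiv_equiv (adjEquiv (Ω := Ω) (𝕃₂ := 𝕃₂) x).toRingEquiv
    (RingEquiv.refl 𝕃₂) (adj_comp x)

theorem norm_tower (x : 𝕃₁) [FiniteDimensional Ω⟮x⟯ 𝕃₁] [FiniteDimensional 𝕃₁ 𝕃₂] (g : 𝕃₂) :
    algebraMap 𝕃₁ 𝕃₂ (algebraMap Ω⟮x⟯ 𝕃₁ (Algebra.norm Ω⟮x⟯ (Algebra.norm 𝕃₁ g)))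
      = algebraMap Ω⟮algebraMap 𝕃₁ 𝕃₂ x⟯ 𝕃₂ (Algebra.norm Ω⟮algebraMap 𝕃₁ 𝕃₂ x⟯ g) := by
  rw [Algebra.norm_norm]
  have h := Algebra.norm_eq_of_equiv_equiv (adjEquiv (Ω := Ω) (𝕃₂ := 𝕃₂) x).toRingEquiv
    (RingEquiv.refl 𝕃₂) (adj_comp x) g
  rw [h]
  have h2 := coe_adjEquiv (Ω := Ω) (𝕃₂ := 𝕃₂) x
    ((adjEquiv (Ω := Ω) (𝕃₂ := 𝕃₂) x).toRingEquiv.symm
      (Algebra.norm Ω⟮algebraMap 𝕃₁ 𝕃₂ x⟯ ((RingEquiv.refl 𝕃₂) g)))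
  rw [show (adjEquiv (Ω := Ω) (𝕃₂ := 𝕃₂) x) ((adjEquiv (Ω := Ω) (𝕃₂ := 𝕃₂) x).toRingEquiv.symm
      (Algebra.norm Ω⟮algebraMap 𝕃₁ 𝕃₂ x⟯ ((RingEquiv.refl 𝕃₂) g)))
      = Algebra.norm Ω⟮algebraMap 𝕃₁ 𝕃₂ x⟯ ((RingEquiv.refl 𝕃₂) g) from
        (adjEquiv (Ω := Ω) (𝕃₂ := 𝕃₂) x).toRingEquiv.apply_symm_apply _] at h2
  exact h2.symm

end Fermat.Agent.S15.B.Desc
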